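/-
PROJECT D (S48, Deligne–Serre), part A, brick A5b (the final assembly), file 2: algebraic integers and
roots of unity under a ring homomorphism `φ : ℤ̄ →+* k` (helper29).  Mathlib only.

* `exists_nat_ne_zero_dvd` : a nonzero algebraic integer divides a nonzero rational integer.
* `exists_bound_injOn` : a finite set of algebraic integers is separated by every `φ : ℤ̄ →+* k`
  into a ring of characteristic `ℓ`, for every `ℓ` beyond a bound depending on the set only.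
* `X_pow_sub_one_eq_prod_map` : `X ^ m - 1 = ∏ (X - φ ζ)` over the `m`-th roots of unity of `ℤ̄`.
* `exists_root_of_pow_eq_one` : every `m`-th root of unity of `k` is `φ` of one of `ℤ̄`.
* `exists_roots_of_pow_eq_one` : a `2 × 2` matrix `g` over `k` with `g ^ m = 1` has
  `(trace, det) = (φ (ζ₁ + ζ₂), φ (ζ₁ ζ₂))` for two `m`-th roots of unity of `ℤ̄`.
* `eq_of_infinite_congr` : two algebraic integers that agree under `φ_ℓ` for infinitely many `ℓ`
  are equal.
-/
import Mathlib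

set_option autoImplicit false

noncomputable section

namespace Fermat.Agent.S48.A.Assemble.Cyclo

open Polynomial

local notation "Zbar" => integralClosure ℤ ℂ

/-! ### a nonzero algebraic integer divides a nonzero rational integer -/

/-- a nonzero algebraic integer divides a nonzero rational integer -/
theorem exists_nat_ne_zero_dvd {x : Zbar} (hx : x ≠ 0) : ∃ n : ℕ, n ≠ 0 ∧ x ∣ (n : Zbar) := by
  have hx' : (x : ℂ) ≠ 0 := fun h => hx (Subtype.ext h)
  have hint : IsIntegral ℤ (x : ℂ) := x.2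
  have halg : IsAlgebraic ℤ ((x : ℂ)⁻¹) := hint.isAlgebraic.inv
  obtain ⟨y, hy0, hy⟩ := halg.exists_integral_multiple
  have hy' : IsIntegral ℤ (y • (x : ℂ)⁻¹) := hy
  have h1 : x ∣ ((y : ℤ) : Zbar) := by
    refine ⟨⟨y • (x : ℂ)⁻¹, hy'⟩, ?_⟩
    apply Subtype.ext
    push_cast
    rw [zsmul_eq_mul]
    field_simp
  obtain ⟨n, hn⟩ : ∃ n : ℕ, y = (n : ℤ) ∨ y = -(n : ℤ) := ⟨y.natAbs, Int.natAbs_eq y⟩
  have hn0 : n ≠ 0 := by
    rintro rfl
    rcases hn with h | h <;> exact hy0 (by simpa using h)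
  refine ⟨n, hn0, ?_⟩
  rcases hn with h | h
  · rw [h, Int.cast_natCast] at h1
    exact h1
  · rw [h, Int.cast_neg, Int.cast_natCast, dvd_neg] at h1
    exact h1

/-- if `x ∣ n` in `ℤ̄` and `φ x = 0` for a ring homomorphism into a ring of characteristic `ℓ`,
then `ℓ ∣ n`. -/
theorem dvd_of_map_eq_zero {k : Type*} [Ring k] {ℓ : ℕ} [CharP k ℓ] (φ : Zbar →+* k)
    {x : Zbar} {n : ℕ} (hdvd : x ∣ (n : Zbar)) (h : φ x = 0) : ℓ ∣ n := by
  obtain ⟨w, hw⟩ := hdvd
  have h1 : φ (n : Zbar) = 0 := by rw [hw, map_mul, h, zero_mul]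
  rw [map_natCast] at h1
  exact (CharP.cast_eq_zero_iff k ℓ n).mp h1

/-- For a nonzero algebraic integer `x` there is a bound beyond which no `φ` kills `x`. -/
theorem exists_bound_map_ne_zero {x : Zbar} (hx : x ≠ 0) :
    ∃ B : ℕ, ∀ ℓ : ℕ, B < ℓ → ∀ (k : Type*) [Ring k] [CharP k ℓ] (φ : Zbar →+* k), φ x ≠ 0 := by
  obtain ⟨n, hn0, hn⟩ := exists_nat_ne_zero_dvd hx
  refine ⟨n, fun ℓ hℓ k _ _ φ h => ?_⟩
  have h1 : ℓ ∣ n := dvd_of_map_eq_zero φ hn h
  have h2 : ℓ ≤ n := Nat.le_of_dvd (Nat.pos_of_ne_zero hn0) h1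
  omega

/-- A finite set of algebraic integers is separated by every `φ : ℤ̄ →+* k` into a ring of
characteristic `ℓ`, for every `ℓ` beyond a bound depending on the set only. -/
theorem exists_bound_injOn (T : Finset Zbar) :
    ∃ B : ℕ, ∀ ℓ : ℕ, B < ℓ → ∀ (k : Type*) [Ring k] [CharP k ℓ] (φ : Zbar →+* k),
      Set.InjOn φ (T : Set Zbar) := by
  classical
  have key : ∀ p : Zbar × Zbar, ∃ B : ℕ, p.1 ≠ p.2 → ∀ ℓ : ℕ, B < ℓ →
      ∀ (k : Type _) [Ring k] [CharP k ℓ] (φ : Zbar →+* k), φ p.1 ≠ φ p.2 := by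
    intro p
    by_cases hp : p.1 = p.2
    · exact ⟨0, fun h => absurd hp h⟩
    · obtain ⟨B, hB⟩ := exists_bound_map_ne_zero (sub_ne_zero.mpr hp)
      refine ⟨B, fun _ ℓ hℓ k _ _ φ h => ?_⟩
      exact hB ℓ hℓ k φ (by rw [map_sub, h, sub_self])
  choose Bf hBf using key
  refine ⟨(T ×ˢ T).sup Bf, fun ℓ hℓ k _ _ φ x hx y hy hxy => ?_⟩
  by_contra hne
  have hmem : (x, y) ∈ T ×ˢ T := Finset.mem_product.mpr ⟨hx, hy⟩
  have h1 : Bf (x, y) ≤ (T ×ˢ T).sup Bf := Finset.le_sup hmem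
  exact hBf (x, y) hne ℓ (lt_of_le_of_lt h1 hℓ) k φ hxy

/-! ### roots of unity -/

/-- `ℤ̄` contains a primitive `m`-th root of unity. -/
theorem exists_isPrimitiveRoot {m : ℕ} (hm : 0 < m) : ∃ ζ : Zbar, IsPrimitiveRoot ζ m := by
  have h := Complex.isPrimitiveRoot_exp m hm.ne'
  have hint : IsIntegral ℤ (Complex.exp (2 * Real.pi * Complex.I / m)) := h.isIntegral hm
  refine ⟨⟨_, hint⟩, ?_⟩
  refine IsPrimitiveRoot.of_map_of_injective (f := (integralClosure ℤ ℂ).val) ?_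
    Subtype.val_injective
  exact h

/-- `X ^ m - 1 = ∏ (X - φ ζ)` over the `m`-th roots of unity `ζ` of `ℤ̄`. -/
theorem X_pow_sub_one_eq_prod_map {k : Type*} [CommRing k] (φ : Zbar →+* k) {m : ℕ}
    (hm : 0 < m) :
    (X ^ m - 1 : k[X]) = ∏ ζ ∈ nthRootsFinset m (1 : Zbar), (X - C (φ ζ)) := by
  obtain ⟨ζ, hζ⟩ := exists_isPrimitiveRoot hm
  have h := congrArg (Polynomial.map φ) (X_pow_sub_one_eq_prod hm hζ)
  rw [Polynomial.map_sub, Polynomial.map_pow, Polynomial.map_X, Polynomial.map_one,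
    Polynomial.map_prod] at h
  rw [h]
  refine Finset.prod_congr rfl fun z _ => ?_
  rw [Polynomial.map_sub, Polynomial.map_X, Polynomial.map_C]

/-- every `m`-th root of unity of `k` is the image of an `m`-th root of unity of `ℤ̄` -/
theorem exists_root_of_pow_eq_one {k : Type*} [CommRing k] [IsDomain k] (φ : Zbar →+* k)
    {m : ℕ} (hm : 0 < m) {u : k} (hu : u ^ m = 1) : ∃ ζ : Zbar, ζ ^ m = 1 ∧ φ ζ = u := by
  have h := congrArg (Polynomial.eval u) (X_pow_sub_one_eq_prod_map φ hm)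
  rw [eval_sub, eval_pow, eval_X, eval_one, hu, sub_self, eval_prod] at h
  obtain ⟨ζ, hζ, h0⟩ := Finset.prod_eq_zero_iff.mp h.symm
  rw [eval_sub, eval_X, eval_C, sub_eq_zero] at h0
  exact ⟨ζ, (mem_nthRootsFinset hm 1).mp hζ, h0.symm⟩

/-! ### matrices of finite order -/

/-- over an algebraically closed field, a `2 × 2` matrix `g` with `g ^ m = 1` has two eigenvalues
which are `m`-th roots of unity, with sum the trace and product the determinant -/
theorem exists_eigenvalues_of_pow_eq_one {K : Type*} [Field K] [IsAlgClosed K]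
    (g : Matrix (Fin 2) (Fin 2) K) {m : ℕ} (hg : g ^ m = 1) :
    ∃ a b : K, a ^ m = 1 ∧ b ^ m = 1 ∧ g.trace = a + b ∧ g.det = a * b := by
  have hsplit : g.charpoly.Splits := IsAlgClosed.splits g.charpoly
  have hcard : Multiset.card g.charpoly.roots = 2 := by
    rw [← hsplit.natDegree_eq_card_roots, Matrix.charpoly_natDegree_eq_dim, Fintype.card_fin]
  obtain ⟨a, b, hab⟩ := Multiset.card_eq_two.mp hcard
  have hroot : ∀ c ∈ g.charpoly.roots, c ^ m = 1 := by
    intro c hc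
    have h1 : IsRoot g.charpoly c := (mem_roots (Matrix.charpoly_monic g).ne_zero).mp hc
    have h2 : c ∈ spectrum K g := Matrix.mem_spectrum_iff_isRoot_charpoly.mpr h1
    have h3 : c ^ m ∈ spectrum K (g ^ m) := spectrum.pow_mem_pow g m h2
    rw [hg, spectrum.one_eq] at h3
    exact h3
  refine ⟨a, b, hroot a (by rw [hab]; simp), hroot b (by rw [hab]; simp), ?_, ?_⟩
  · rw [Matrix.trace_eq_sum_roots_charpoly, hab]
    simp
  · rw [Matrix.det_eq_prod_roots_charpoly, hab]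
    simp

/-- A `2 × 2` matrix `g` over a field `k` with `g ^ m = 1` has
`(trace, det) = (φ (ζ₁ + ζ₂), φ (ζ₁ ζ₂))` for two `m`-th roots of unity of `ℤ̄`. -/
theorem exists_roots_of_pow_eq_one {k : Type*} [Field k] (φ : Zbar →+* k)
    (g : Matrix (Fin 2) (Fin 2) k) {m : ℕ} (hm : 0 < m) (hg : g ^ m = 1) :
    ∃ ζ₁ ζ₂ : Zbar, ζ₁ ^ m = 1 ∧ ζ₂ ^ m = 1 ∧ g.trace = φ (ζ₁ + ζ₂) ∧ g.det = φ (ζ₁ * ζ₂) := by
  set ι : k →+* AlgebraicClosure k := algebraMap k (AlgebraicClosure k) with hι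
  have hinj : Function.Injective ι := (algebraMap k (AlgebraicClosure k)).injective
  have hg' : (g.map ι) ^ m = 1 := by
    have h0 : (g ^ m).map ι = (1 : Matrix (Fin 2) (Fin 2) k).map ι := by rw [hg]
    rw [Matrix.map_pow, Matrix.map_one ι (map_zero ι) (map_one ι)] at h0
    exact h0
  obtain ⟨a, b, ha, hb, htr, hdet⟩ := exists_eigenvalues_of_pow_eq_one (g.map ι) hg'
  obtain ⟨ζ₁, h1, e1⟩ := exists_root_of_pow_eq_one (ι.comp φ) hm ha
  obtain ⟨ζ₂, h2, e2⟩ := exists_root_of_pow_eq_one (ι.comp φ) hm hb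
  refine ⟨ζ₁, ζ₂, h1, h2, hinj ?_, hinj ?_⟩
  · have h3 : (g.map ι).trace = ι g.trace := by
      rw [Matrix.trace, Matrix.trace, map_sum]
      rfl
    rw [← h3, htr, map_add, map_add, ← e1, ← e2]
    rfl
  · have h3 : (g.map ι).det = ι g.det := (RingHom.map_det ι g).symm
    rw [← h3, hdet, map_mul, map_mul, ← e1, ← e2]
    rfl

/-! ### agreement modulo infinitely many primes -/

/-- Two algebraic integers that agree under `φ_ℓ` for infinitely many `ℓ` are equal
(stated for one pair `(ℓ, k, φ)` beyond the bound). -/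
theorem exists_bound_eq_of_map_eq (x y : Zbar) :
    ∃ B : ℕ, ∀ ℓ : ℕ, B < ℓ → ∀ (k : Type*) [Ring k] [CharP k ℓ] (φ : Zbar →+* k),
      φ x = φ y → x = y := by
  classical
  obtain ⟨B, hB⟩ := exists_bound_injOn ({x, y} : Finset Zbar)
  refine ⟨B, fun ℓ hℓ k _ _ φ h => ?_⟩
  exact hB ℓ hℓ k φ (by simp) (by simp) h

end Fermat.Agent.S48.A.Assemble.Cyclo

end
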