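/-
PROJECT D (S48, Deligne–Serre), part A, brick A5b (the final assembly), file 3: elementary facts on
`2 × 2` matrices and on sums of two characters (helper29).  Mathlib only.

* `mul_self_eq` : Cayley–Hamilton for `2 × 2` matrices, `g * g = trace g • g - det g • 1`.
* `trace_pow_congr` : `trace (g ^ j)` is a function of `(trace g, det g)`.
* `eq_one_of_pow_eq_one_of_trace_eq_two` : over `ℂ`, a matrix of finite order with trace `2` is `1`.
* `eigenvalue_quadratic`, `trace_eq_of_eigenvector` : an eigenvalue `c` of `g` satisfies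
  `c ^ 2 - trace g * c + det g = 0`.
* `two_mul_card_le_sum_norm_sq` : `2 |G| ≤ ∑_g ‖χ₁ g + χ₂ g‖ ^ 2` for two characters of a finite group.
-/
import Mathlib
import Fermat.Agent.S48.A.Assemble.Cyclo

set_option autoImplicit false

noncomputable section

namespace Fermat.Agent.S48.A.Assemble.TwoByTwo

open Matrix

/-! ### Cayley–Hamilton by hand and powers -/

section CommRing

variable {R : Type*} [CommRing R]

/-- Cayley–Hamilton for `2 × 2` matrices. -/
theorem mul_self_eq (g : Matrix (Fin 2) (Fin 2) R) :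
    g * g = g.trace • g - g.det • (1 : Matrix (Fin 2) (Fin 2) R) := by
  ext i j
  fin_cases i <;> fin_cases j <;>
    simp [Matrix.mul_apply, Fin.sum_univ_two, Matrix.trace_fin_two, Matrix.det_fin_two] <;> ring

/-- the two-step recursion for the powers of a `2 × 2` matrix -/
theorem pow_add_two (g : Matrix (Fin 2) (Fin 2) R) (j : ℕ) :
    g ^ (j + 2) = g.trace • g ^ (j + 1) - g.det • g ^ j := by
  rw [pow_add, pow_two, mul_self_eq, mul_sub, mul_smul_comm, mul_smul_comm, mul_one, ← pow_succ]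

/-- the two-step recursion for the traces of the powers of a `2 × 2` matrix -/
theorem trace_pow_add_two (g : Matrix (Fin 2) (Fin 2) R) (j : ℕ) :
    (g ^ (j + 2)).trace = g.trace * (g ^ (j + 1)).trace - g.det * (g ^ j).trace := by
  rw [pow_add_two, Matrix.trace_sub, Matrix.trace_smul, Matrix.trace_smul, smul_eq_mul, smul_eq_mul]

/-- `trace (g ^ j)` is a function of `(trace g, det g)`. -/
theorem trace_pow_congr {g g' : Matrix (Fin 2) (Fin 2) R} (ht : g.trace = g'.trace)
    (hd : g.det = g'.det) (j : ℕ) : (g ^ j).trace = (g' ^ j).trace := by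
  have key : ∀ j : ℕ, (g ^ j).trace = (g' ^ j).trace ∧ (g ^ (j + 1)).trace = (g' ^ (j + 1)).trace := by
    intro j
    induction j with
    | zero => exact ⟨by rw [pow_zero, pow_zero], by rw [pow_one, pow_one, ht]⟩
    | succ n ih =>
      refine ⟨ih.2, ?_⟩
      rw [trace_pow_add_two, trace_pow_add_two, ih.1, ih.2, ht, hd]
  exact (key j).1

/-- `det (g ^ j)` is a function of `det g`. -/
theorem det_pow_congr {g g' : Matrix (Fin 2) (Fin 2) R} (hd : g.det = g'.det) (j : ℕ) :
    (g ^ j).det = (g' ^ j).det := by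
  rw [Matrix.det_pow, Matrix.det_pow, hd]

/-- an eigenvalue is a root of the characteristic polynomial (`2 × 2`, by hand) -/
theorem det_sub_smul_one (g : Matrix (Fin 2) (Fin 2) R) (c : R) :
    (g - c • (1 : Matrix (Fin 2) (Fin 2) R)).det = c ^ 2 - g.trace * c + g.det := by
  simp [Matrix.det_fin_two, Matrix.trace_fin_two]
  ring

end CommRing

section Field

variable {k : Type*} [Field k]

/-- an eigenvalue `c` of `g` satisfies `c ^ 2 - trace g * c + det g = 0` -/
theorem eigenvalue_quadratic (g : Matrix (Fin 2) (Fin 2) k) {v : Fin 2 → k} (hv : v ≠ 0) {c : k}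
    (h : g *ᵥ v = c • v) : c ^ 2 - g.trace * c + g.det = 0 := by
  rw [← det_sub_smul_one]
  apply Matrix.exists_mulVec_eq_zero_iff.mp
  refine ⟨v, hv, ?_⟩
  rw [Matrix.sub_mulVec, h, Matrix.smul_mulVec, Matrix.one_mulVec, sub_self]

/-- conversely a root of the characteristic polynomial has an eigenvector -/
theorem exists_eigenvector (g : Matrix (Fin 2) (Fin 2) k) {c : k}
    (h : c ^ 2 - g.trace * c + g.det = 0) : ∃ v : Fin 2 → k, v ≠ 0 ∧ g *ᵥ v = c • v := by
  rw [← det_sub_smul_one] at h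
  obtain ⟨v, hv, h1⟩ := Matrix.exists_mulVec_eq_zero_iff.mpr h
  refine ⟨v, hv, ?_⟩
  rw [Matrix.sub_mulVec, Matrix.smul_mulVec, Matrix.one_mulVec, sub_eq_zero] at h1
  exact h1

/-- for an eigenvalue `c ≠ 0` of `g`: `trace g = c + det g / c` -/
theorem trace_eq_of_eigenvector (g : Matrix (Fin 2) (Fin 2) k) {v : Fin 2 → k} (hv : v ≠ 0) {c : k}
    (hc : c ≠ 0) (h : g *ᵥ v = c • v) : g.trace = c + g.det / c := by
  have h1 := eigenvalue_quadratic g hv h
  have h2 : g.trace * c = c * c + g.det := by linear_combination (-1 : k) * h1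
  calc g.trace = g.trace * c / c := by rw [mul_div_assoc, div_self hc, mul_one]
    _ = (c * c + g.det) / c := by rw [h2]
    _ = c + g.det / c := by rw [add_div, mul_div_assoc, div_self hc, mul_one]

end Field

/-! ### finite order and trace `2` over `ℂ` -/

/-- a root of unity of real part `1` is `1` -/
theorem eq_one_of_norm_eq_one_of_re_eq_one {a : ℂ} (hn : ‖a‖ = 1) (hre : a.re = 1) : a = 1 := by
  have h1 : Complex.normSq a = 1 := by
    rw [Complex.normSq_eq_norm_sq, hn, one_pow]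
  rw [Complex.normSq_apply, hre] at h1
  have him : a.im = 0 := by nlinarith
  exact Complex.ext hre (by simpa using him)

/-- Over `ℂ`, a `2 × 2` matrix of finite order with trace `2` is the identity. -/
theorem eq_one_of_pow_eq_one_of_trace_eq_two (g : Matrix (Fin 2) (Fin 2) ℂ) {m : ℕ} (hm : 0 < m)
    (hg : g ^ m = 1) (ht : g.trace = 2) : g = 1 := by
  obtain ⟨a, b, ha, hb, htr, hdet⟩ := Cyclo.exists_eigenvalues_of_pow_eq_one g hg
  have hna : ‖a‖ = 1 := Complex.norm_eq_one_of_pow_eq_one ha hm.ne'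
  have hnb : ‖b‖ = 1 := Complex.norm_eq_one_of_pow_eq_one hb hm.ne'
  have hab : a + b = 2 := by rw [← htr, ht]
  have hre : a.re + b.re = 2 := by
    have := congrArg Complex.re hab
    simpa using this
  have hra : a.re ≤ 1 := hna ▸ Complex.re_le_norm a
  have hrb : b.re ≤ 1 := hnb ▸ Complex.re_le_norm b
  have ha1 : a = 1 := eq_one_of_norm_eq_one_of_re_eq_one hna (by linarith)
  have hb1 : b = 1 := eq_one_of_norm_eq_one_of_re_eq_one hnb (by linarith)
  have hd : g.det = 1 := by rw [hdet, ha1, hb1, mul_one]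
  -- `g ^ (j + 1) = (j + 1) • g - j • 1`
  have key : ∀ j : ℕ, g ^ (j + 1) = ((j : ℂ) + 1) • g - (j : ℂ) • (1 : Matrix (Fin 2) (Fin 2) ℂ) ∧
      g ^ (j + 2) = ((j : ℂ) + 2) • g - ((j : ℂ) + 1) • (1 : Matrix (Fin 2) (Fin 2) ℂ) := by
    intro j
    induction j with
    | zero =>
      refine ⟨by simp, ?_⟩
      rw [pow_add_two, ht, hd]
      simp
    | succ n ih =>
      refine ⟨by rw [ih.2]; push_cast; congr 2; ring, ?_⟩
      rw [pow_add_two, ht, hd, ih.1, ih.2]
      push_cast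
      module
  obtain ⟨j, rfl⟩ : ∃ j, m = j + 1 := ⟨m - 1, by omega⟩
  have h1 := (key j).1
  rw [hg] at h1
  have h2 : ((j : ℂ) + 1) • (g - 1) = 0 := by
    rw [smul_sub]
    have h4 : ((j : ℂ) + 1) • g = 1 + (j : ℂ) • (1 : Matrix (Fin 2) (Fin 2) ℂ) :=
      eq_add_of_sub_eq h1.symm
    rw [h4]
    module
  have h3 : ((j : ℂ) + 1) ≠ 0 := by
    have : ((j : ℂ) + 1) = ((j + 1 : ℕ) : ℂ) := by push_cast; ring
    rw [this]
    exact Nat.cast_ne_zero.mpr (Nat.succ_ne_zero j)
  rcases smul_eq_zero.mp h2 with h | h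
  · exact absurd h h3
  · exact sub_eq_zero.mp h

/-! ### the sum of two characters -/

/-- the norm square of a sum of two complex numbers of norm one -/
theorem norm_sq_add_of_norm_eq_one {a b : ℂ} (ha : ‖a‖ = 1) (hb : ‖b‖ = 1) :
    ‖a + b‖ ^ 2 = 2 + 2 * (a * b⁻¹).re := by
  have hb' : b⁻¹ = (starRingEnd ℂ) b := by
    rw [Complex.inv_def, Complex.normSq_eq_norm_sq, hb]
    simp
  rw [Complex.sq_norm, Complex.normSq_add, Complex.normSq_eq_norm_sq, Complex.normSq_eq_norm_sq,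
    ha, hb, hb']
  ring

/-- `2 |G| ≤ ∑_g ‖χ₁ g + χ₂ g‖ ^ 2` for two characters of a finite group. -/
theorem two_mul_card_le_sum_norm_sq {G : Type*} [Group G] [Fintype G] (χ₁ χ₂ : G →* ℂˣ) :
    2 * (Fintype.card G : ℝ) ≤ ∑ g : G, ‖((χ₁ g : ℂˣ) : ℂ) + ((χ₂ g : ℂˣ) : ℂ)‖ ^ 2 := by
  classical
  have hnorm : ∀ (χ : G →* ℂˣ) (g : G), ‖((χ g : ℂˣ) : ℂ)‖ = 1 := by
    intro χ g
    have h1 : ((χ g : ℂˣ) : ℂ) ^ Fintype.card G = 1 := by
      rw [← Units.val_pow_eq_pow_val, ← map_pow, pow_card_eq_one, map_one, Units.val_one]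
    exact Complex.norm_eq_one_of_pow_eq_one h1 Fintype.card_ne_zero
  set ψ : G →* ℂˣ := χ₁ / χ₂ with hψ
  have hterm : ∀ g : G, ‖((χ₁ g : ℂˣ) : ℂ) + ((χ₂ g : ℂˣ) : ℂ)‖ ^ 2 =
      2 + 2 * (((ψ g : ℂˣ) : ℂ)).re := by
    intro g
    rw [norm_sq_add_of_norm_eq_one (hnorm χ₁ g) (hnorm χ₂ g), hψ, MonoidHom.div_apply,
      Units.val_div_eq_div_val, div_eq_mul_inv]
  have hsum : (0 : ℝ) ≤ (∑ g : G, ((ψ g : ℂˣ) : ℂ)).re := by
    by_cases h1 : ψ = 1
    · rw [h1]
      simp
    · have h2 : (Units.coeHom ℂ).comp ψ ≠ 1 := by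
        intro h
        apply h1
        ext g
        have := DFunLike.congr_fun h g
        simpa using this
      have h0 : ∑ g : G, ((ψ g : ℂˣ) : ℂ) = 0 :=
        sum_hom_units_eq_zero ((Units.coeHom ℂ).comp ψ) h2
      rw [h0]
      simp
  calc 2 * (Fintype.card G : ℝ) ≤ 2 * (Fintype.card G : ℝ) +
        2 * (∑ g : G, ((ψ g : ℂˣ) : ℂ)).re := by linarith
    _ = ∑ g : G, (2 + 2 * (((ψ g : ℂˣ) : ℂ)).re) := by
        rw [Finset.sum_add_distrib, Finset.sum_const, Finset.card_univ, nsmul_eq_mul,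
          ← Finset.mul_sum, Complex.re_sum]
        ring
    _ = ∑ g : G, ‖((χ₁ g : ℂˣ) : ℂ) + ((χ₂ g : ℂˣ) : ℂ)‖ ^ 2 := by
        refine Finset.sum_congr rfl fun g _ => ?_
        rw [hterm]

end Fermat.Agent.S48.A.Assemble.TwoByTwo

end
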