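/-
PROJECT D (S48, Deligne–Serre), part A, brick A5b (the final assembly), file 4: semisimplification of a
two-dimensional matrix representation (helper29).  Mathlib only.

* `diagHom χ₁ χ₂` : the diagonal representation `γ ↦ diag (χ₁ γ, χ₂ γ)`.
* `exists_semisimple` : every `ρ : Γ →* GL₂(k)` has a companion `ρ'` with the same traces and
  determinants, trivial wherever `ρ` is, which either has no common eigenvector or is diagonal.
* `hss_of` : such a `ρ'` satisfies the elementary form of semisimplicity used by brick A4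
  (`a common eigenvector has an independent common eigenvector`).
-/
import Mathlib
import Fermat.Agent.S48.A.Assemble.TwoByTwo

set_option autoImplicit false

noncomputable section

namespace Fermat.Agent.S48.A.Assemble.Semisimple

open Matrix

variable {Γ : Type*} [Group Γ] {k : Type*} [Field k]

/-- product of two diagonal `2 × 2` matrices -/
theorem diagonal_mul_diagonal_two (a b c d : k) :
    (Matrix.diagonal ![a, b] : Matrix (Fin 2) (Fin 2) k) * Matrix.diagonal ![c, d] =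
      Matrix.diagonal ![a * c, b * d] := by
  ext i j
  fin_cases i <;> fin_cases j <;> simp [Matrix.mul_apply, Fin.sum_univ_two]

/-- the diagonal `2 × 2` matrix with entries `1, 1` -/
theorem diagonal_one_one : (Matrix.diagonal ![(1 : k), 1] : Matrix (Fin 2) (Fin 2) k) = 1 := by
  ext i j
  fin_cases i <;> fin_cases j <;> simp

/-- the diagonal representation attached to two characters, as a monoid homomorphism to matrices -/
def diagMatHom (χ₁ χ₂ : Γ →* kˣ) : Γ →* Matrix (Fin 2) (Fin 2) k where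
  toFun γ := Matrix.diagonal ![((χ₁ γ : kˣ) : k), ((χ₂ γ : kˣ) : k)]
  map_one' := by
    rw [map_one, map_one, Units.val_one]
    exact diagonal_one_one
  map_mul' γ δ := by
    rw [map_mul, map_mul, Units.val_mul, Units.val_mul, diagonal_mul_diagonal_two]

/-- the diagonal representation attached to two characters -/
def diagHom (χ₁ χ₂ : Γ →* kˣ) : Γ →* GL (Fin 2) k :=
  (diagMatHom χ₁ χ₂).toHomUnits

theorem diagHom_apply (χ₁ χ₂ : Γ →* kˣ) (γ : Γ) :
    ((diagHom χ₁ χ₂ γ : GL (Fin 2) k) : Matrix (Fin 2) (Fin 2) k) =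
      Matrix.diagonal ![((χ₁ γ : kˣ) : k), ((χ₂ γ : kˣ) : k)] :=
  rfl

theorem trace_diagHom (χ₁ χ₂ : Γ →* kˣ) (γ : Γ) :
    ((diagHom χ₁ χ₂ γ : GL (Fin 2) k) : Matrix (Fin 2) (Fin 2) k).trace =
      ((χ₁ γ : kˣ) : k) + ((χ₂ γ : kˣ) : k) := by
  rw [diagHom_apply, Matrix.trace_fin_two]
  simp

theorem det_diagHom (χ₁ χ₂ : Γ →* kˣ) (γ : Γ) :
    ((diagHom χ₁ χ₂ γ : GL (Fin 2) k) : Matrix (Fin 2) (Fin 2) k).det =
      ((χ₁ γ : kˣ) : k) * ((χ₂ γ : kˣ) : k) := by
  rw [diagHom_apply, Matrix.det_fin_two]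
  simp

/-- the standard basis vectors are eigenvectors of a diagonal matrix -/
theorem diagonal_mulVec_single_zero (a b : k) :
    (Matrix.diagonal ![a, b] : Matrix (Fin 2) (Fin 2) k) *ᵥ ![1, 0] = a • ![1, 0] := by
  ext i
  fin_cases i <;> simp [Matrix.mulVec, dotProduct, Fin.sum_univ_two]

theorem diagonal_mulVec_single_one (a b : k) :
    (Matrix.diagonal ![a, b] : Matrix (Fin 2) (Fin 2) k) *ᵥ ![0, 1] = b • ![0, 1] := by
  ext i
  fin_cases i <;> simp [Matrix.mulVec, dotProduct, Fin.sum_univ_two]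

/-- Every `ρ : Γ →* GL₂(k)` has a companion `ρ'` with the same traces and determinants, trivial
wherever `ρ` is, which either has no common eigenvector or is diagonal. -/
theorem exists_semisimple (ρ : Γ →* GL (Fin 2) k) :
    ∃ ρ' : Γ →* GL (Fin 2) k,
      (∀ γ : Γ, ((ρ' γ : GL (Fin 2) k) : Matrix (Fin 2) (Fin 2) k).trace =
          ((ρ γ : GL (Fin 2) k) : Matrix (Fin 2) (Fin 2) k).trace ∧
        ((ρ' γ : GL (Fin 2) k) : Matrix (Fin 2) (Fin 2) k).det =
          ((ρ γ : GL (Fin 2) k) : Matrix (Fin 2) (Fin 2) k).det) ∧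
      (∀ γ : Γ, ρ γ = 1 → ρ' γ = 1) ∧
      ((∀ v : Fin 2 → k, v ≠ 0 →
          ¬ ∀ γ : Γ, ∃ c : k, ((ρ' γ : GL (Fin 2) k) : Matrix (Fin 2) (Fin 2) k) *ᵥ v = c • v) ∨
        ∃ χ₁ χ₂ : Γ →* kˣ, ρ' = diagHom χ₁ χ₂) := by
  by_cases hred : ∃ v : Fin 2 → k, v ≠ 0 ∧
      ∀ γ : Γ, ∃ c : k, ((ρ γ : GL (Fin 2) k) : Matrix (Fin 2) (Fin 2) k) *ᵥ v = c • v
  · obtain ⟨v, hv, hc⟩ := hred
    choose c hc using hc
    have hsmul : ∀ a b : k, a • v = b • v → a = b := by
      intro a b hab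
      have h1 : (a - b) • v = 0 := by rw [sub_smul, hab, sub_self]
      rcases smul_eq_zero.mp h1 with h | h
      · exact sub_eq_zero.mp h
      · exact absurd h hv
    have hc1 : c 1 = 1 := by
      apply hsmul
      rw [← hc 1, map_one, Units.val_one, Matrix.one_mulVec, one_smul]
    have hcmul : ∀ γ δ : Γ, c (γ * δ) = c γ * c δ := by
      intro γ δ
      apply hsmul
      rw [← hc (γ * δ), map_mul, Units.val_mul, ← Matrix.mulVec_mulVec, hc δ, Matrix.mulVec_smul,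
        hc γ, smul_smul, mul_comm]
    set c' : Γ →* k := { toFun := c, map_one' := hc1, map_mul' := hcmul } with hc'
    set χ₁ : Γ →* kˣ := c'.toHomUnits with hχ₁
    have hχ₁v : ∀ γ : Γ, ((χ₁ γ : kˣ) : k) = c γ := fun γ => rfl
    set χ₂ : Γ →* kˣ := (Matrix.GeneralLinearGroup.det.comp ρ) / χ₁ with hχ₂
    have hχ₂v : ∀ γ : Γ, ((χ₂ γ : kˣ) : k) =
        ((ρ γ : GL (Fin 2) k) : Matrix (Fin 2) (Fin 2) k).det / c γ := by
      intro γ
      rw [hχ₂, MonoidHom.div_apply, Units.val_div_eq_div_val, hχ₁v]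
      rfl
    have hcne : ∀ γ : Γ, c γ ≠ 0 := fun γ => hχ₁v γ ▸ (χ₁ γ).ne_zero
    refine ⟨diagHom χ₁ χ₂, fun γ => ⟨?_, ?_⟩, fun γ hγ => ?_, Or.inr ⟨χ₁, χ₂, rfl⟩⟩
    · rw [trace_diagHom, hχ₁v, hχ₂v]
      exact (TwoByTwo.trace_eq_of_eigenvector _ hv (hcne γ) (hc γ)).symm
    · rw [det_diagHom, hχ₁v, hχ₂v, mul_div_cancel₀ _ (hcne γ)]
    · have h1 : c γ = 1 := by
        apply hsmul
        rw [← hc γ, hγ, Units.val_one, Matrix.one_mulVec, one_smul]
      apply Units.ext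
      rw [diagHom_apply, hχ₁v, hχ₂v, h1, hγ, Units.val_one, Matrix.det_one, div_one]
      exact diagonal_one_one
  · refine ⟨ρ, fun γ => ⟨rfl, rfl⟩, fun γ hγ => hγ, Or.inl fun v hv h => hred ⟨v, hv, h⟩⟩

/-- The elementary form of semisimplicity used by brick A4. -/
theorem hss_of (ρ' : Γ →* GL (Fin 2) k)
    (h : (∀ v : Fin 2 → k, v ≠ 0 →
          ¬ ∀ γ : Γ, ∃ c : k, ((ρ' γ : GL (Fin 2) k) : Matrix (Fin 2) (Fin 2) k) *ᵥ v = c • v) ∨
        ∃ χ₁ χ₂ : Γ →* kˣ, ρ' = diagHom χ₁ χ₂) :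
    ∀ v : Fin 2 → k, v ≠ 0 →
      (∀ g ∈ ρ'.range, ∃ c : k, ((g : GL (Fin 2) k) : Matrix (Fin 2) (Fin 2) k) *ᵥ v = c • v) →
      ∃ w : Fin 2 → k, (∀ c : k, w ≠ c • v) ∧
        ∀ g ∈ ρ'.range, ∃ c : k, ((g : GL (Fin 2) k) : Matrix (Fin 2) (Fin 2) k) *ᵥ w = c • w := by
  intro v hv hcommon
  rcases h with h | ⟨χ₁, χ₂, rfl⟩
  · exact absurd (fun γ => hcommon (ρ' γ) ⟨γ, rfl⟩) (h v hv)
  · by_cases hv0 : v 0 = 0
    · have hv1 : v 1 ≠ 0 := by
        intro hv1
        apply hv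
        ext i
        fin_cases i
        · exact hv0
        · exact hv1
      refine ⟨![1, 0], fun c hc => ?_, ?_⟩
      · have := congrFun hc 0
        simp [hv0] at this
      · rintro g ⟨γ, rfl⟩
        exact ⟨_, by rw [diagHom_apply]; exact diagonal_mulVec_single_zero _ _⟩
    · refine ⟨![0, 1], fun c hc => ?_, ?_⟩
      · have h0 := congrFun hc 0
        have h1 := congrFun hc 1
        simp at h0 h1
        rcases h0 with h0 | h0
        · rw [h0] at h1
          simp at h1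
        · exact hv0 h0
      · rintro g ⟨γ, rfl⟩
        exact ⟨_, by rw [diagHom_apply]; exact diagonal_mulVec_single_one _ _⟩

end Fermat.Agent.S48.A.Assemble.Semisimple

end
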