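/-
PROJECT D (S48, Deligne–Serre), part A, brick A5b (the final assembly), file 5: descent of a semisimple
two-dimensional representation to a subfield containing all eigenvalues (helper29).  Mathlib only.

No Wedderburn, no Lang: an element with two distinct eigenvalues in the subfield is diagonalised, the
traces of `h` and `g h` give the diagonal of `h`, and one rescaling of the second basis vector gives
the off-diagonal entries.

* `eq_smul_one_of_double_root` : a `2 × 2` matrix of order prime to the characteristic with a double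
  eigenvalue is scalar.
* `exists_diagonalize` : a `2 × 2` matrix with two distinct eigenvalues is diagonalisable.
* `exists_hom_of_entries` : a representation all of whose entries lie in the range of `j : F₀ →+* k`
  comes from `GL₂(F₀)`.
* `exists_descent` : the descent.
-/
import Mathlib
import Fermat.Agent.S48.A.Assemble.Semisimple

set_option autoImplicit false

noncomputable section

namespace Fermat.Agent.S48.A.Assemble.Descent

open Matrix

variable {k : Type*} [Field k]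

/-! ### a double eigenvalue and finite order prime to the characteristic -/

/-- A `2 × 2` matrix `g` with `g ^ m = 1`, `m` invertible in `k`, and characteristic polynomial
`(X - u) ^ 2` is the scalar `u`. -/
theorem eq_smul_one_of_double_root (g : Matrix (Fin 2) (Fin 2) k) (u : k) {m : ℕ}
    (hm : (m : k) ≠ 0) (hg : g ^ m = 1) (ht : g.trace = u + u) (hd : g.det = u * u) :
    g = u • (1 : Matrix (Fin 2) (Fin 2) k) := by
  set n : Matrix (Fin 2) (Fin 2) k := g - u • (1 : Matrix (Fin 2) (Fin 2) k) with hn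
  have hgn : g = u • (1 : Matrix (Fin 2) (Fin 2) k) + n := by rw [hn]; abel
  have hn2 : n * n = 0 := by
    have h := TwoByTwo.mul_self_eq g
    rw [ht, hd] at h
    rw [hn, sub_mul, mul_sub, mul_sub, h, smul_mul_assoc, mul_smul_comm, one_mul, mul_one,
      smul_mul_assoc, one_mul]
    module
  have key : ∀ i : ℕ, g ^ (i + 1) =
      u ^ (i + 1) • (1 : Matrix (Fin 2) (Fin 2) k) + (((i + 1 : ℕ) : k) * u ^ i) • n := by
    intro i
    induction i with
    | zero =>
      rw [zero_add, pow_one, pow_one, pow_zero, Nat.cast_one, mul_one, one_smul]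
      exact hgn
    | succ i ih =>
      rw [pow_succ, ih]
      conv_lhs => rw [hgn]
      simp only [add_mul, mul_add, smul_mul_assoc, mul_smul_comm, one_mul, mul_one, hn2, smul_zero,
        add_zero]
      push_cast
      module
  have hm0 : m ≠ 0 := by
    rintro rfl
    exact hm Nat.cast_zero
  obtain ⟨i, rfl⟩ : ∃ i, m = i + 1 := ⟨m - 1, by omega⟩
  have h1 := key i
  rw [hg] at h1
  -- multiply by `n`
  have h2 : n = u ^ (i + 1) • n := by
    have := congrArg (fun M => M * n) h1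
    simp only [one_mul, add_mul, smul_mul_assoc, hn2, smul_zero, add_zero] at this
    exact this
  have h3 : (1 - u ^ (i + 1)) • n = 0 := by
    rw [sub_smul, one_smul, ← h2, sub_self]
  rcases smul_eq_zero.mp h3 with h | h
  · have hu : u ^ (i + 1) = 1 := (sub_eq_zero.mp h).symm
    rw [hu, one_smul] at h1
    have h4 : (((i + 1 : ℕ) : k) * u ^ i) • n = 0 := by
      have := congrArg (fun M => M - 1) h1
      simpa using this.symm
    rcases smul_eq_zero.mp h4 with h5 | h5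
    · rcases mul_eq_zero.mp h5 with h6 | h6
      · exact absurd h6 hm
      · have : u ^ (i + 1) = 0 := by rw [pow_succ, h6, zero_mul]
        rw [hu] at this
        exact absurd this one_ne_zero
    · rw [hgn, h5, add_zero]
  · rw [hgn, h, add_zero]

/-! ### diagonalisation -/

/-- a `2 × 2` matrix with two distinct eigenvalues `a ≠ b` is diagonalisable -/
theorem exists_diagonalize (g : Matrix (Fin 2) (Fin 2) k) {a b : k} (hab : a ≠ b)
    (ht : g.trace = a + b) (hd : g.det = a * b) :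
    ∃ P : GL (Fin 2) k, g * (P : Matrix (Fin 2) (Fin 2) k) =
      (P : Matrix (Fin 2) (Fin 2) k) * Matrix.diagonal ![a, b] := by
  obtain ⟨v, hv, hgv⟩ := TwoByTwo.exists_eigenvector g (c := a) (by rw [ht, hd]; ring)
  obtain ⟨w, hw, hgw⟩ := TwoByTwo.exists_eigenvector g (c := b) (by rw [ht, hd]; ring)
  set P : Matrix (Fin 2) (Fin 2) k := Matrix.of ![![v 0, w 0], ![v 1, w 1]] with hP
  have hdet : P.det ≠ 0 := by
    rw [hP, Matrix.det_fin_two_of]
    intro h0
    -- `w 0 • v = v 0 • w` and `w 1 • v = v 1 • w`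
    have e0 : w 0 • v = v 0 • w := by
      ext i
      fin_cases i
      · simp only [Fin.zero_eta, Pi.smul_apply, smul_eq_mul]
        ring
      · simp only [Fin.mk_one, Pi.smul_apply, smul_eq_mul]
        linear_combination (-1 : k) * h0
    have e1 : w 1 • v = v 1 • w := by
      ext i
      fin_cases i
      · simp only [Fin.zero_eta, Pi.smul_apply, smul_eq_mul]
        linear_combination h0
      · simp only [Fin.mk_one, Pi.smul_apply, smul_eq_mul]
        ring
    have hz : ∀ i : Fin 2, w i • v = v i • w → w i = 0 := by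
      intro i e
      have h1 := congrArg (fun x => g *ᵥ x) e
      simp only [Matrix.mulVec_smul, hgv, hgw] at h1
      have h2 : (w i * (a - b)) • v = 0 := by
        rw [mul_sub, sub_smul, ← smul_smul, ← smul_smul, h1, smul_comm (v i) b w, ← e,
          smul_comm b (w i) v, sub_self]
      rcases smul_eq_zero.mp h2 with h3 | h3
      · rcases mul_eq_zero.mp h3 with h4 | h4
        · exact h4
        · exact absurd (sub_eq_zero.mp h4) hab
      · exact absurd h3 hv
    apply hw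
    ext i
    fin_cases i
    · exact hz 0 e0
    · exact hz 1 e1
  refine ⟨Matrix.GeneralLinearGroup.mkOfDetNeZero P hdet, ?_⟩
  have hcoe : ((Matrix.GeneralLinearGroup.mkOfDetNeZero P hdet : GL (Fin 2) k) :
      Matrix (Fin 2) (Fin 2) k) = P := rfl
  rw [hcoe]
  ext i i'
  have h1 := congrFun hgv i
  have h2 := congrFun hgw i
  simp only [Matrix.mulVec, dotProduct, Fin.sum_univ_two, Pi.smul_apply, smul_eq_mul] at h1 h2
  fin_cases i' <;> fin_cases i <;>
    simp [hP, Matrix.mul_apply, Fin.sum_univ_two, Matrix.diagonal] <;>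
    first
      | (simp at h1; linear_combination h1)
      | (simp at h2; linear_combination h2)

/-! ### a representation with entries in a subfield -/

variable {Γ : Type*} [Group Γ] {F₀ : Type*} [Field F₀]

/-- A representation all of whose entries lie in the range of `j : F₀ →+* k` comes from
`GL₂(F₀)`. -/
theorem exists_hom_of_entries (j : F₀ →+* k) (ρ : Γ →* GL (Fin 2) k)
    (h : ∀ (γ : Γ) (i i' : Fin 2), ∃ x : F₀,
      j x = ((ρ γ : GL (Fin 2) k) : Matrix (Fin 2) (Fin 2) k) i i') :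
    ∃ ρ₀ : Γ →* GL (Fin 2) F₀, ∀ γ : Γ, Matrix.GeneralLinearGroup.map j (ρ₀ γ) = ρ γ := by
  choose x hx using h
  have hinj : Function.Injective j := j.injective
  have hmapinj : Function.Injective
      (fun M : Matrix (Fin 2) (Fin 2) F₀ => M.map j) := Matrix.map_injective hinj
  set M : Γ → Matrix (Fin 2) (Fin 2) F₀ := fun γ => Matrix.of (x γ) with hM
  have hMmap : ∀ γ : Γ, (M γ).map j = ((ρ γ : GL (Fin 2) k) : Matrix (Fin 2) (Fin 2) k) := by
    intro γ
    ext i i'
    rw [Matrix.map_apply, hM]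
    exact hx γ i i'
  have hM1 : M 1 = 1 := by
    apply hmapinj
    show (M 1).map j = (1 : Matrix (Fin 2) (Fin 2) F₀).map j
    rw [hMmap, map_one, Units.val_one, Matrix.map_one j (map_zero j) (map_one j)]
  have hMmul : ∀ γ δ : Γ, M (γ * δ) = M γ * M δ := by
    intro γ δ
    apply hmapinj
    show (M (γ * δ)).map j = (M γ * M δ).map j
    rw [Matrix.map_mul, hMmap, hMmap, hMmap, map_mul, Units.val_mul]
  set M' : Γ →* Matrix (Fin 2) (Fin 2) F₀ :=
    { toFun := M, map_one' := hM1, map_mul' := hMmul } with hM'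
  refine ⟨M'.toHomUnits, fun γ => ?_⟩
  apply Units.ext
  ext i i'
  rw [Matrix.GeneralLinearGroup.map_apply, ← hx γ i i']
  rfl

/-- conjugation preserves the absence of a common eigenvector -/
theorem no_common_eigenvector_conj (ρ : Γ →* GL (Fin 2) k) (Q : GL (Fin 2) k)
    (h : ∀ v : Fin 2 → k, v ≠ 0 →
      ¬ ∀ γ : Γ, ∃ c : k, ((ρ γ : GL (Fin 2) k) : Matrix (Fin 2) (Fin 2) k) *ᵥ v = c • v) :
    ∀ v : Fin 2 → k, v ≠ 0 →
      ¬ ∀ γ : Γ, ∃ c : k,
        ((Q * ρ γ * Q⁻¹ : GL (Fin 2) k) : Matrix (Fin 2) (Fin 2) k) *ᵥ v = c • v := by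
  intro v hv hcommon
  set w : Fin 2 → k := ((Q⁻¹ : GL (Fin 2) k) : Matrix (Fin 2) (Fin 2) k) *ᵥ v with hw
  have hQw : ((Q : GL (Fin 2) k) : Matrix (Fin 2) (Fin 2) k) *ᵥ w = v := by
    rw [hw, Matrix.mulVec_mulVec, ← Units.val_mul, mul_inv_cancel, Units.val_one,
      Matrix.one_mulVec]
  have hw0 : w ≠ 0 := by
    intro h0
    rw [h0, Matrix.mulVec_zero] at hQw
    exact hv hQw.symm
  refine h w hw0 fun γ => ?_
  obtain ⟨c, hc⟩ := hcommon γ
  refine ⟨c, ?_⟩
  have h1 : ((ρ γ : GL (Fin 2) k) : Matrix (Fin 2) (Fin 2) k) *ᵥ w =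
      ((Q⁻¹ : GL (Fin 2) k) : Matrix (Fin 2) (Fin 2) k) *ᵥ
        (((Q * ρ γ * Q⁻¹ : GL (Fin 2) k) : Matrix (Fin 2) (Fin 2) k) *ᵥ v) := by
    rw [hw, Matrix.mulVec_mulVec, Matrix.mulVec_mulVec, ← Units.val_mul, ← Units.val_mul]
    congr 2
    group
  rw [h1, hc, Matrix.mulVec_smul]

/-- the conjugate of a representation -/
def conjHom (Q : GL (Fin 2) k) (ρ : Γ →* GL (Fin 2) k) : Γ →* GL (Fin 2) k where
  toFun γ := Q * ρ γ * Q⁻¹
  map_one' := by rw [map_one, mul_one, mul_inv_cancel]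
  map_mul' γ δ := by rw [map_mul]; group

theorem conjHom_apply (Q : GL (Fin 2) k) (ρ : Γ →* GL (Fin 2) k) (γ : Γ) :
    conjHom Q ρ γ = Q * ρ γ * Q⁻¹ := rfl

/-! ### the core: coordinates adapted to an element with two distinct eigenvalues -/

/-- In coordinates where `ρ γ₀ = diag (a, b)`, `a ≠ b` in the subfield `F`, all traces in `F` and no
common eigenvector: after rescaling the second basis vector all entries lie in `F`. -/
theorem core (F : Subfield k) (ρ : Γ →* GL (Fin 2) k) {a b : k} (hab : a ≠ b) (ha : a ∈ F)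
    (hb : b ∈ F) (γ₀ : Γ)
    (hγ₀ : ((ρ γ₀ : GL (Fin 2) k) : Matrix (Fin 2) (Fin 2) k) = Matrix.diagonal ![a, b])
    (htr : ∀ γ : Γ, ((ρ γ : GL (Fin 2) k) : Matrix (Fin 2) (Fin 2) k).trace ∈ F)
    (hirr : ∀ v : Fin 2 → k, v ≠ 0 →
      ¬ ∀ γ : Γ, ∃ c : k, ((ρ γ : GL (Fin 2) k) : Matrix (Fin 2) (Fin 2) k) *ᵥ v = c • v) :
    ∃ c : k, c ≠ 0 ∧ ∀ γ : Γ,
      ((ρ γ : GL (Fin 2) k) : Matrix (Fin 2) (Fin 2) k) 0 0 ∈ F ∧
      ((ρ γ : GL (Fin 2) k) : Matrix (Fin 2) (Fin 2) k) 1 1 ∈ F ∧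
      ((ρ γ : GL (Fin 2) k) : Matrix (Fin 2) (Fin 2) k) 0 1 * c⁻¹ ∈ F ∧
      c * ((ρ γ : GL (Fin 2) k) : Matrix (Fin 2) (Fin 2) k) 1 0 ∈ F := by
  -- (i) the diagonal entries
  have hdiag : ∀ γ : Γ, ((ρ γ : GL (Fin 2) k) : Matrix (Fin 2) (Fin 2) k) 0 0 ∈ F ∧
      ((ρ γ : GL (Fin 2) k) : Matrix (Fin 2) (Fin 2) k) 1 1 ∈ F := by
    intro γ
    set h : Matrix (Fin 2) (Fin 2) k := ((ρ γ : GL (Fin 2) k) : Matrix (Fin 2) (Fin 2) k) with hh
    have h1 : h 0 0 + h 1 1 ∈ F := by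
      have := htr γ
      rwa [Matrix.trace_fin_two] at this
    have h2 : a * h 0 0 + b * h 1 1 ∈ F := by
      have := htr (γ₀ * γ)
      rw [map_mul, Units.val_mul, hγ₀, Matrix.trace_fin_two] at this
      simpa [Matrix.mul_apply, Fin.sum_univ_two, Matrix.diagonal] using this
    have hne : a - b ≠ 0 := sub_ne_zero.mpr hab
    have h00 : h 0 0 = (a * h 0 0 + b * h 1 1 - b * (h 0 0 + h 1 1)) / (a - b) := by
      field_simp
      ring
    have h00F : h 0 0 ∈ F := by
      rw [h00]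
      exact F.div_mem (F.sub_mem h2 (F.mul_mem hb h1)) (F.sub_mem ha hb)
    refine ⟨h00F, ?_⟩
    have h11 : h 1 1 = (h 0 0 + h 1 1) - h 0 0 := by ring
    rw [h11]
    exact F.sub_mem h1 h00F
  -- (ii) the products of off-diagonal entries
  have hprod : ∀ γ δ : Γ, ((ρ γ : GL (Fin 2) k) : Matrix (Fin 2) (Fin 2) k) 0 1 *
      ((ρ δ : GL (Fin 2) k) : Matrix (Fin 2) (Fin 2) k) 1 0 ∈ F := by
    intro γ δ
    have h1 := (hdiag (γ * δ)).1
    rw [map_mul, Units.val_mul, Matrix.mul_apply, Fin.sum_univ_two] at h1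
    have h2 := F.mul_mem (hdiag γ).1 (hdiag δ).1
    have := F.sub_mem h1 h2
    rwa [add_sub_cancel_left] at this
  -- (iii) nonzero off-diagonal entries
  have hex10 : ∃ δ₀ : Γ, ((ρ δ₀ : GL (Fin 2) k) : Matrix (Fin 2) (Fin 2) k) 1 0 ≠ 0 := by
    by_contra hall0
    have hall : ∀ δ : Γ, ((ρ δ : GL (Fin 2) k) : Matrix (Fin 2) (Fin 2) k) 1 0 = 0 :=
      fun δ => by_contra fun h => hall0 ⟨δ, h⟩
    refine hirr ![1, 0] (by intro h; have := congrFun h 0; simp at this) fun γ => ?_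
    refine ⟨((ρ γ : GL (Fin 2) k) : Matrix (Fin 2) (Fin 2) k) 0 0, ?_⟩
    ext i
    fin_cases i
    · simp [Matrix.mulVec, dotProduct, Fin.sum_univ_two]
    · simp [Matrix.mulVec, dotProduct, Fin.sum_univ_two, hall γ]
  have hex01 : ∃ γ₁ : Γ, ((ρ γ₁ : GL (Fin 2) k) : Matrix (Fin 2) (Fin 2) k) 0 1 ≠ 0 := by
    by_contra hall0
    have hall : ∀ δ : Γ, ((ρ δ : GL (Fin 2) k) : Matrix (Fin 2) (Fin 2) k) 0 1 = 0 :=
      fun δ => by_contra fun h => hall0 ⟨δ, h⟩
    refine hirr ![0, 1] (by intro h; have := congrFun h 1; simp at this) fun γ => ?_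
    refine ⟨((ρ γ : GL (Fin 2) k) : Matrix (Fin 2) (Fin 2) k) 1 1, ?_⟩
    ext i
    fin_cases i
    · simp [Matrix.mulVec, dotProduct, Fin.sum_univ_two, hall γ]
    · simp [Matrix.mulVec, dotProduct, Fin.sum_univ_two]
  obtain ⟨δ₀, hr⟩ := hex10
  obtain ⟨γ₁, hq⟩ := hex01
  set r : k := ((ρ δ₀ : GL (Fin 2) k) : Matrix (Fin 2) (Fin 2) k) 1 0 with hr'
  set q : k := ((ρ γ₁ : GL (Fin 2) k) : Matrix (Fin 2) (Fin 2) k) 0 1 with hq'
  refine ⟨r⁻¹, inv_ne_zero hr, fun γ => ⟨(hdiag γ).1, (hdiag γ).2, ?_, ?_⟩⟩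
  · rw [inv_inv]
    exact hprod γ δ₀
  · have h1 : r⁻¹ * ((ρ γ : GL (Fin 2) k) : Matrix (Fin 2) (Fin 2) k) 1 0 =
        (q * ((ρ γ : GL (Fin 2) k) : Matrix (Fin 2) (Fin 2) k) 1 0) / (q * r) := by
      field_simp
    rw [h1]
    exact F.div_mem (hprod γ₁ γ) (hprod γ₁ δ₀)

/-! ### the descent -/

/-- the diagonal matrix `diag (1, c)` as an element of `GL₂(k)` -/
def diagOneGL (c : k) (hc : c ≠ 0) : GL (Fin 2) k where
  val := Matrix.diagonal ![1, c]
  inv := Matrix.diagonal ![1, c⁻¹]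
  val_inv := by
    rw [Semisimple.diagonal_mul_diagonal_two, mul_one, mul_inv_cancel₀ hc]
    exact Semisimple.diagonal_one_one
  inv_val := by
    rw [Semisimple.diagonal_mul_diagonal_two, mul_one, inv_mul_cancel₀ hc]
    exact Semisimple.diagonal_one_one

theorem diagOneGL_conj_apply (c : k) (hc : c ≠ 0) (h : GL (Fin 2) k) (i i' : Fin 2) :
    ((diagOneGL c hc * h * (diagOneGL c hc)⁻¹ : GL (Fin 2) k) : Matrix (Fin 2) (Fin 2) k) i i' =
      ![1, c] i * (h : Matrix (Fin 2) (Fin 2) k) i i' * ![1, c⁻¹] i' := by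
  have h1 : ((diagOneGL c hc * h * (diagOneGL c hc)⁻¹ : GL (Fin 2) k) :
      Matrix (Fin 2) (Fin 2) k) =
      Matrix.diagonal ![1, c] * (h : Matrix (Fin 2) (Fin 2) k) * Matrix.diagonal ![1, c⁻¹] := rfl
  rw [h1, Matrix.mul_diagonal, Matrix.diagonal_mul]

/-- **Descent.** A representation `ρ : Γ →* GL₂(k)` of exponent `m` prime to the characteristic, all of
whose elements have their two eigenvalues in the range of `j : F₀ →+* k`, and which is either without
common eigenvector or diagonal, is conjugate to a representation coming from `GL₂(F₀)`. -/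
theorem exists_descent (j : F₀ →+* k) (ρ : Γ →* GL (Fin 2) k) {m : ℕ} (hm : (m : k) ≠ 0)
    (hpow : ∀ γ : Γ, ((ρ γ : GL (Fin 2) k) : Matrix (Fin 2) (Fin 2) k) ^ m = 1)
    (heig : ∀ γ : Γ, ∃ a b : F₀,
      ((ρ γ : GL (Fin 2) k) : Matrix (Fin 2) (Fin 2) k).trace = j a + j b ∧
      ((ρ γ : GL (Fin 2) k) : Matrix (Fin 2) (Fin 2) k).det = j a * j b)
    (hss : (∀ v : Fin 2 → k, v ≠ 0 →
        ¬ ∀ γ : Γ, ∃ c : k, ((ρ γ : GL (Fin 2) k) : Matrix (Fin 2) (Fin 2) k) *ᵥ v = c • v) ∨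
      ∃ χ₁ χ₂ : Γ →* kˣ, ρ = Semisimple.diagHom χ₁ χ₂) :
    ∃ (Q : GL (Fin 2) k) (ρ₀ : Γ →* GL (Fin 2) F₀),
      ∀ γ : Γ, Matrix.GeneralLinearGroup.map j (ρ₀ γ) = Q * ρ γ * Q⁻¹ := by
  rcases hss with hirr | ⟨χ₁, χ₂, rfl⟩
  · -- the irreducible case
    set F : Subfield k := j.fieldRange with hF
    have hjF : ∀ x : F₀, j x ∈ F := fun x => ⟨x, rfl⟩
    -- a non-scalar element
    have hex : ∃ γ₀ : Γ, ∀ u : k, ((ρ γ₀ : GL (Fin 2) k) : Matrix (Fin 2) (Fin 2) k) ≠
        u • (1 : Matrix (Fin 2) (Fin 2) k) := by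
      by_contra hall0
      have hall : ∀ γ : Γ, ∃ u : k, ((ρ γ : GL (Fin 2) k) : Matrix (Fin 2) (Fin 2) k) =
          u • (1 : Matrix (Fin 2) (Fin 2) k) := by
        intro γ
        by_contra h
        exact hall0 ⟨γ, fun u hu => h ⟨u, hu⟩⟩
      refine hirr ![1, 0] (by intro h; have := congrFun h 0; simp at this) fun γ => ?_
      obtain ⟨u, hu⟩ := hall γ
      exact ⟨u, by rw [hu, Matrix.smul_mulVec, Matrix.one_mulVec]⟩
    obtain ⟨γ₀, hγ₀⟩ := hex
    obtain ⟨a, b, hta, hda⟩ := heig γ₀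
    have hab : j a ≠ j b := by
      intro h
      rw [← h] at hta hda
      exact hγ₀ (j a) (eq_smul_one_of_double_root _ (j a) hm (hpow γ₀) hta hda)
    obtain ⟨P, hP⟩ := exists_diagonalize _ hab hta hda
    -- the representation in adapted coordinates
    set ρ₁ : Γ →* GL (Fin 2) k := conjHom P⁻¹ ρ with hρ₁
    have hρ₁γ₀ : ((ρ₁ γ₀ : GL (Fin 2) k) : Matrix (Fin 2) (Fin 2) k) =
        Matrix.diagonal ![j a, j b] := by
      rw [hρ₁, conjHom_apply, inv_inv, Units.val_mul, Units.val_mul, mul_assoc, hP, ← mul_assoc,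
        ← Units.val_mul, inv_mul_cancel, Units.val_one, one_mul]
    have htr₁ : ∀ γ : Γ, ((ρ₁ γ : GL (Fin 2) k) : Matrix (Fin 2) (Fin 2) k).trace ∈ F := by
      intro γ
      obtain ⟨a', b', ht', -⟩ := heig γ
      rw [hρ₁, conjHom_apply, inv_inv, Units.val_mul, Units.val_mul, Matrix.trace_mul_cycle,
        ← Units.val_mul, mul_inv_cancel, Units.val_one, one_mul, ht']
      exact F.add_mem (hjF a') (hjF b')
    have hirr₁ : ∀ v : Fin 2 → k, v ≠ 0 →
        ¬ ∀ γ : Γ, ∃ c : k, ((ρ₁ γ : GL (Fin 2) k) : Matrix (Fin 2) (Fin 2) k) *ᵥ v = c • v :=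
      no_common_eigenvector_conj ρ P⁻¹ hirr
    obtain ⟨c, hc, hentries⟩ := core F ρ₁ hab (hjF a) (hjF b) γ₀ hρ₁γ₀ htr₁ hirr₁
    set ρ₂ : Γ →* GL (Fin 2) k := conjHom (diagOneGL c hc) ρ₁ with hρ₂
    have hentries₂ : ∀ (γ : Γ) (i i' : Fin 2), ∃ x : F₀,
        j x = ((ρ₂ γ : GL (Fin 2) k) : Matrix (Fin 2) (Fin 2) k) i i' := by
      intro γ i i'
      obtain ⟨h00, h11, h01, h10⟩ := hentries γ
      rw [hρ₂, conjHom_apply, diagOneGL_conj_apply]
      fin_cases i <;> fin_cases i'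
      · obtain ⟨x, hx⟩ := h00
        exact ⟨x, by simpa using hx⟩
      · obtain ⟨x, hx⟩ := h01
        exact ⟨x, by simpa using hx⟩
      · obtain ⟨x, hx⟩ := h10
        exact ⟨x, by simpa using hx⟩
      · obtain ⟨x, hx⟩ := h11
        refine ⟨x, ?_⟩
        rw [hx]
        simp only [Fin.mk_one, Matrix.cons_val_one, Matrix.cons_val_fin_one]
        field_simp
    obtain ⟨ρ₀, hρ₀⟩ := exists_hom_of_entries j ρ₂ hentries₂
    refine ⟨diagOneGL c hc * P⁻¹, ρ₀, fun γ => ?_⟩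
    rw [hρ₀, hρ₂, conjHom_apply, hρ₁, conjHom_apply]
    group
  · -- the diagonal case
    have hroot : ∀ (γ : Γ) (x : k) (v : Fin 2 → k), v ≠ 0 →
        ((Semisimple.diagHom χ₁ χ₂ γ : GL (Fin 2) k) : Matrix (Fin 2) (Fin 2) k) *ᵥ v = x • v →
        ∃ y : F₀, j y = x := by
      intro γ x v hv hxv
      obtain ⟨a, b, ht, hd⟩ := heig γ
      have h1 := TwoByTwo.eigenvalue_quadratic _ hv hxv
      rw [ht, hd] at h1
      have h2 : (x - j a) * (x - j b) = 0 := by linear_combination h1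
      rcases mul_eq_zero.mp h2 with h3 | h3
      · exact ⟨a, (sub_eq_zero.mp h3).symm⟩
      · exact ⟨b, (sub_eq_zero.mp h3).symm⟩
    have hentries : ∀ (γ : Γ) (i i' : Fin 2), ∃ x : F₀,
        j x = ((Semisimple.diagHom χ₁ χ₂ γ : GL (Fin 2) k) : Matrix (Fin 2) (Fin 2) k) i i' := by
      intro γ i i'
      obtain ⟨y₁, hy₁⟩ := hroot γ _ ![1, 0] (by intro h; have := congrFun h 0; simp at this)
        (by rw [Semisimple.diagHom_apply]; exact Semisimple.diagonal_mulVec_single_zero _ _)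
      obtain ⟨y₂, hy₂⟩ := hroot γ _ ![0, 1] (by intro h; have := congrFun h 1; simp at this)
        (by rw [Semisimple.diagHom_apply]; exact Semisimple.diagonal_mulVec_single_one _ _)
      rw [Semisimple.diagHom_apply]
      fin_cases i <;> fin_cases i'
      · exact ⟨y₁, by simpa using hy₁⟩
      · exact ⟨0, by simp⟩
      · exact ⟨0, by simp⟩
      · exact ⟨y₂, by simpa using hy₂⟩
    obtain ⟨ρ₀, hρ₀⟩ := exists_hom_of_entries j _ hentries
    refine ⟨1, ρ₀, fun γ => ?_⟩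
    rw [hρ₀, one_mul, inv_one, mul_one]

end Fermat.Agent.S48.A.Assemble.Descent

end
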