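/-
PROJECT D (S48, Deligne–Serre), part A, brick A5b (the final assembly), file 1: the comparison of
two "Dirichlet density" bounds in bounded-error form (helper29).

* `le_of_forall_log_le` : if `c * log (1 / (s - 1)) - C₀ ≤ η * log (1 / (s - 1)) + C₁` for every
  `s ∈ (1, 2]`, then `c ≤ η`.
* `le_of_lower_upper` : the same with a family of finite sums in between
  (`lower bound ≤ ∑_{p ∈ F s} … ≤ upper bound`).
-/
import Mathlib

set_option autoImplicit false

namespace Fermat.Agent.S48.A.Assemble.Density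

/-- the value `log (1 / (s - 1))` at `s = 1 + exp (-t)` is `t` -/
theorem log_one_div_exp (t : ℝ) : Real.log (1 / ((1 + Real.exp (-t)) - 1)) = t := by
  rw [add_sub_cancel_left, one_div, Real.log_inv, Real.log_exp, neg_neg]

/-- If `c * log (1 / (s - 1)) - C₀ ≤ η * log (1 / (s - 1)) + C₁` for every `s ∈ (1, 2]`,
then `c ≤ η`. -/
theorem le_of_forall_log_le {c η C₀ C₁ : ℝ}
    (h : ∀ s : ℝ, 1 < s → s ≤ 2 →
      c * Real.log (1 / (s - 1)) - C₀ ≤ η * Real.log (1 / (s - 1)) + C₁) :
    c ≤ η := by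
  by_contra hlt
  rw [not_le] at hlt
  have hpos : 0 < c - η := sub_pos.mpr hlt
  set D : ℝ := (C₀ + C₁) / (c - η) with hD
  set t : ℝ := |D| + 1 with ht
  have ht0 : 0 ≤ t := by positivity
  have hs1 : 1 < 1 + Real.exp (-t) := by
    have := Real.exp_pos (-t)
    linarith
  have hs2 : 1 + Real.exp (-t) ≤ 2 := by
    have : Real.exp (-t) ≤ 1 := by
      rw [Real.exp_le_one_iff]
      linarith
    linarith
  have h1 := h _ hs1 hs2
  rw [log_one_div_exp] at h1
  have h2 : (c - η) * t ≤ C₀ + C₁ := by linarith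
  have h3 : t ≤ D := by
    rw [hD, le_div_iff₀ hpos]
    linarith
  have h4 : D ≤ |D| := le_abs_self D
  linarith

/-- The sandwich form: a lower bound and an upper bound for the same finite sums. -/
theorem le_of_lower_upper {c η C₀ C₁ : ℝ}
    (h : ∀ s : ℝ, 1 < s → s ≤ 2 → ∃ x : ℝ,
      c * Real.log (1 / (s - 1)) - C₀ ≤ x ∧ x ≤ η * Real.log (1 / (s - 1)) + C₁) :
    c ≤ η := by
  refine le_of_forall_log_le (C₀ := C₀) (C₁ := C₁) fun s hs1 hs2 => ?_
  obtain ⟨x, hx1, hx2⟩ := h s hs1 hs2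
  exact hx1.trans hx2

end Fermat.Agent.S48.A.Assemble.Density
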