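/-
PROJECT D (S48, Deligne–Serre), part A, brick A5b (the final assembly), file 7: Deligne–Serre (8.2)
and (8.3) in abstract form: **the order of the image of a semisimple residual representation whose
Frobenius elements carry few pairs (trace, det) off a thin set of primes is bounded** (helper29).

Inputs: `Defs.ChebLower` (brick A6, `ε`-form), helper27's `FewPolys.wild_prime_le`, helper2's
tame bound (`FewPolys.TameBound`, a hypothesis until `TameP1.lean` is on a branch),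
`Density.le_of_lower_upper`, and the existence of places and Frobenius elements (main).

* `card_range_le` : for `r : G_ℚ →* GL₂(k)` of finite level, semisimple, `char k = ℓ`, with
  `(trace, det) (r Frob_p) = (t p, d p)` for `p ∉ S`, `(t p, d p) ∈ T` for the good primes, the bad
  primes of upper logarithmic density `≤ 1 / 4`, and `8 |T| < ℓ`:  `|r(G_ℚ)| ≤ 480 |T|`.
-/
import Mathlib
import Fermat.Agent.S48.A.Defs
import Fermat.Agent.S48.A.FewPolys
import Fermat.Agent.S48.A.Compare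
import Fermat.Agent.Lib.FrobeniusExists
import Fermat.Agent.CFT.Bridge.Inertia
import Fermat.Agent.S56.Cheb.Dict
import Fermat.Agent.S48.A.Assemble.Density

set_option autoImplicit false

noncomputable section

namespace Fermat.Agent.S48.A.Assemble.Bound

open Matrix
open scoped Pointwise

local notation "Qb" => AlgebraicClosure ℚ

/-- finite level implies that the range is a finite group -/
theorem finite_range {M : Type} [Group M] (r : GQ →* M)
    (h : GaloisFactorsThroughFiniteLevel r) : Finite r.range := by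
  have := (Compare.finite_range_of_finiteLevel r h).to_subtype
  rwa [← MonoidHom.coe_range] at this

/-- **Deligne–Serre (8.2) + (8.3).** -/
theorem card_range_le (hCheb : ChebLower) (htame : FewPolys.TameBound.{0})
    {ℓ : ℕ} [Fact ℓ.Prime] {k : Type} [Field k] [CharP k ℓ]
    (r : GQ →* GL (Fin 2) k) (hlevel : GaloisFactorsThroughFiniteLevel r)
    (hss : SemisimpleLines r.range) (S : Finset ℕ) (t d : ℕ → k)
    (hfrob : ∀ p : ℕ, p.Prime → p ∉ S → ∀ A : ValuationSubring Qb, A.LiesOverPrime p →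
      ∀ σ : GQ, A.IsFrobeniusAt σ p →
        ((r σ : GL (Fin 2) k) : Matrix (Fin 2) (Fin 2) k).trace = t p ∧
        ((r σ : GL (Fin 2) k) : Matrix (Fin 2) (Fin 2) k).det = d p)
    (Good : Set ℕ) (T : Finset (k × k))
    (hT : ∀ p : ℕ, p.Prime → p ∉ S → p ∈ Good → (t p, d p) ∈ T)
    (hbad : UpperLogDensityLE Goodᶜ (1 / 4)) (hℓ : 8 * T.card < ℓ) :
    Nat.card r.range ≤ 480 * T.card := by
  classical
  set G : Subgroup (GL (Fin 2) k) := r.range with hG
  have : Finite G := finite_range r hlevel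
  set ρ : GQ →* G := r.rangeRestrict with hρ
  have hρsurj : Function.Surjective ρ := r.rangeRestrict_surjective
  have hρval : ∀ σ : GQ, ((ρ σ : G) : GL (Fin 2) k) = r σ := fun σ => rfl
  have hρlevel : GaloisFactorsThroughFiniteLevel ρ := by
    obtain ⟨L, hL, hker⟩ := hlevel
    exact ⟨L, hL, fun σ hσ => Subtype.ext (hker σ hσ)⟩
  -- the Frobenius images of the good primes
  set H₀ : Set G := {g | ∃ p : ℕ, p.Prime ∧ p ∉ S ∧ p ∈ Good ∧
    ∃ (A : ValuationSubring Qb) (σ : GQ), A.LiesOverPrime p ∧ A.IsFrobeniusAt σ p ∧ ρ σ = g}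
    with hH₀
  have hH₀conj : ∀ g h : G, g ∈ H₀ → h * g * h⁻¹ ∈ H₀ := by
    rintro g h ⟨p, hp, hpS, hpG, A, σ, hA, hσ, rfl⟩
    obtain ⟨τ, rfl⟩ := hρsurj h
    refine ⟨p, hp, hpS, hpG, τ • A, τ * σ * τ⁻¹,
      Fermat.Agent.CFT.Bridge.Inertia.liesOverPrime_smul ℚ hA τ, ?_, by
        rw [map_mul, map_mul, map_inv]⟩
    rw [Fermat.Agent.S56.Cheb.Dict.isFrobeniusAt_smul_iff]
    have h1 : τ⁻¹ * (τ * σ * τ⁻¹) * τ = σ := by group
    rw [h1]
    exact hσ
  set C : Set G := H₀ᶜ with hC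
  have hCconj : ∀ g h : G, g ∈ C → h * g * h⁻¹ ∈ C := by
    intro g h hg hmem
    apply hg
    have h1 := hH₀conj _ h⁻¹ hmem
    have h2 : h⁻¹ * (h * g * h⁻¹) * h⁻¹⁻¹ = g := by group
    rwa [h2] at h1
  obtain ⟨C₁, hC₁⟩ := hbad
  obtain ⟨C₀, hC₀⟩ := hCheb G ρ hρlevel hρsurj S C hCconj (1 / 8) (by norm_num)
  have hdens : (C.ncard : ℝ) / (Nat.card G : ℝ) - 1 / 8 ≤ 1 / 4 := by
    refine Density.le_of_lower_upper (C₀ := C₀) (C₁ := C₁) fun s hs1 hs2 => ?_
    obtain ⟨F, hF, hlow⟩ := hC₀ s hs1 hs2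
    refine ⟨∑ p ∈ F, 1 / (p : ℝ) ^ s, hlow, hC₁ s hs1 hs2 F fun p hp => ?_⟩
    obtain ⟨hpp, hpS, hpF⟩ := hF p hp
    refine ⟨hpp, fun hpG => ?_⟩
    obtain ⟨A, σ, hA, hσ⟩ :=
      Fermat.Agent.Lib.FrobeniusExists.exists_valuationSubring_isFrobeniusAt p hpp
    exact (hpF A hA).2 σ hσ ⟨p, hpp, hpS, hpG, A, σ, hA, hσ, rfl⟩
  -- cardinalities
  have hGpos : (0 : ℝ) < (Nat.card G : ℝ) := by exact_mod_cast Nat.card_pos
  have hCle : (C.ncard : ℝ) ≤ 3 / 8 * (Nat.card G : ℝ) := by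
    have h1 : (C.ncard : ℝ) / (Nat.card G : ℝ) ≤ 3 / 8 := by linarith
    rwa [div_le_iff₀ hGpos] at h1
  have hsum : H₀.ncard + C.ncard = Nat.card G := Set.ncard_add_ncard_compl H₀
  have hH₀ge : (1 - 3 / 8 : ℝ) * (Nat.card G : ℝ) ≤ (H₀.ncard : ℝ) := by
    have h1 : (H₀.ncard : ℝ) + (C.ncard : ℝ) = (Nat.card G : ℝ) := by exact_mod_cast hsum
    linarith
  -- the finset `H`
  set H : Finset (GL (Fin 2) k) := (Set.toFinite H₀).toFinset.image Subtype.val with hH
  have hHcard : H.card = H₀.ncard := by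
    rw [hH, Finset.card_image_of_injective _ Subtype.val_injective,
      Set.ncard_eq_toFinset_card H₀ (Set.toFinite H₀)]
  have hHmem : ∀ h ∈ H, ∃ g : G, g ∈ H₀ ∧ (g : GL (Fin 2) k) = h := by
    intro h hh
    rw [hH, Finset.mem_image] at hh
    obtain ⟨g, hg, rfl⟩ := hh
    exact ⟨g, (Set.Finite.mem_toFinset _).mp hg, rfl⟩
  have hHG : ∀ h ∈ H, h ∈ G := by
    intro h hh
    obtain ⟨g, -, rfl⟩ := hHmem h hh
    exact g.2
  have hHge : (1 - 3 / 8 : ℝ) * (Nat.card G : ℝ) ≤ (H.card : ℝ) := by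
    rw [hHcard]
    exact hH₀ge
  -- the pairs (trace, det) on `H` lie in `T`
  have himg : ((H.image fun h : GL (Fin 2) k =>
      ((h : Matrix (Fin 2) (Fin 2) k).trace, (h : Matrix (Fin 2) (Fin 2) k).det)).card : ℝ) ≤
      (T.card : ℝ) := by
    have hsub : (H.image fun h : GL (Fin 2) k =>
        ((h : Matrix (Fin 2) (Fin 2) k).trace, (h : Matrix (Fin 2) (Fin 2) k).det)) ⊆ T := by
      intro x hx
      rw [Finset.mem_image] at hx
      obtain ⟨h, hh, rfl⟩ := hx
      obtain ⟨g, ⟨p, hp, hpS, hpG, A, σ, hA, hσ, rfl⟩, rfl⟩ := hHmem h hh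
      rw [hρval, (hfrob p hp hpS A hA σ hσ).1, (hfrob p hp hpS A hA σ hσ).2]
      exact hT p hp hpS hpG
    exact_mod_cast Finset.card_le_card hsub
  -- the wild case is excluded
  have hnd : ¬ ℓ ∣ Nat.card G := by
    intro hdvd
    have h1 := FewPolys.wild_prime_le G hdvd hss H hHG hHge
    have h2 : (1 / 2 - 3 / 8 : ℝ) * (ℓ : ℝ) ≤ (T.card : ℝ) := h1.trans himg
    have h3 : (ℓ : ℝ) ≤ 8 * (T.card : ℝ) := by linarith
    have h4 : ℓ ≤ 8 * T.card := by exact_mod_cast h3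
    omega
  have hGk : ((Nat.card G : ℕ) : k) ≠ 0 := by
    intro h0
    exact hnd ((CharP.cast_eq_zero_iff k ℓ _).mp h0)
  -- the tame bound
  have h5 := htame G hGk H hHG hHge
  have h6 : (1 - 2 * (3 / 8) : ℝ) * (Nat.card G : ℝ) ≤ 120 * (T.card : ℝ) := by
    refine h5.trans ?_
    exact mul_le_mul_of_nonneg_left himg (by norm_num)
  have h7 : (Nat.card G : ℝ) ≤ 480 * (T.card : ℝ) := by linarith
  exact_mod_cast h7

end Fermat.Agent.S48.A.Assemble.Bound

end
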