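/-
PROJECT D (S48, Deligne–Serre), part A, brick A5b (the final assembly), file 6: from a residual
representation `ρ : ResidualGaloisRep k` (the carrier of the seam `(B*)`) to a semisimple matrix
representation `r : G_ℚ →* GL₂(k)` with the same characteristic polynomials (helper29).

* `exists_matrixRep` : the matrix representation in a basis of `ρ.V`, semisimplified
  (`Semisimple.exists_semisimple`): `(trace, det) (r σ)` are the coefficients of
  `charpoly (ρ.ρ σ)`, `r σ = 1` wherever `ρ.ρ σ = 1`, and `r` has no common eigenvector or is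
  diagonal.
-/
import Mathlib
import Fermat.Prelude.Def_GaloisRep_Residual
import Fermat.Agent.S48.A.Defs
import Fermat.Agent.S48.A.Assemble.Semisimple

set_option autoImplicit false

noncomputable section

namespace Fermat.Agent.S48.A.Assemble.Residual

open Polynomial Matrix

variable {k : Type} [Field k]

/-- the coefficients of a monic quadratic `X ^ 2 - C t * X + C d` -/
theorem quadratic_inj {t d t' d' : k}
    (h : (X ^ 2 - C t * X + C d : k[X]) = X ^ 2 - C t' * X + C d') : t = t' ∧ d = d' := by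
  have h0 := congrArg (fun p : k[X] => p.coeff 0) h
  have h1 := congrArg (fun p : k[X] => p.coeff 1) h
  simp only [coeff_add, coeff_sub, coeff_X_pow, coeff_C_mul, coeff_X_zero, coeff_C_zero,
    coeff_X_one, mul_zero, mul_one, sub_zero] at h0 h1
  simp only [coeff_C, one_ne_zero, if_false, add_zero] at h1
  constructor
  · have : (0 : k) - t = 0 - t' := by simpa using h1
    linear_combination (-1 : k) * this
  · simpa using h0

/-- the matrix representation of `ρ` in a basis -/
def matHom (ρ : ResidualGaloisRep k) (b : Module.Basis (Fin 2) k ρ.V) :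
    GQ →* GL (Fin 2) k :=
  ((LinearMap.toMatrixAlgEquiv b).toAlgHom.toRingHom.toMonoidHom.comp ρ.ρ).toHomUnits

theorem matHom_apply (ρ : ResidualGaloisRep k) (b : Module.Basis (Fin 2) k ρ.V) (σ : GQ) :
    ((matHom ρ b σ : GL (Fin 2) k) : Matrix (Fin 2) (Fin 2) k) =
      LinearMap.toMatrix b b (ρ.ρ σ) :=
  rfl

theorem charpoly_eq (ρ : ResidualGaloisRep k) (b : Module.Basis (Fin 2) k ρ.V) (σ : GQ) :
    LinearMap.charpoly (ρ.ρ σ) =
      X ^ 2 - C ((matHom ρ b σ : GL (Fin 2) k) : Matrix (Fin 2) (Fin 2) k).trace * X +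
        C ((matHom ρ b σ : GL (Fin 2) k) : Matrix (Fin 2) (Fin 2) k).det := by
  rw [← Matrix.charpoly_fin_two, matHom_apply, LinearMap.charpoly_toMatrix]

/-- **The semisimple matrix representation attached to a residual representation.** -/
theorem exists_matrixRep (ρ : ResidualGaloisRep k) :
    ∃ r : GQ →* GL (Fin 2) k,
      (∀ σ : GQ, ρ.ρ σ = 1 → r σ = 1) ∧
      (∀ (σ : GQ) (t d : k), LinearMap.charpoly (ρ.ρ σ) = X ^ 2 - C t * X + C d →
        ((r σ : GL (Fin 2) k) : Matrix (Fin 2) (Fin 2) k).trace = t ∧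
        ((r σ : GL (Fin 2) k) : Matrix (Fin 2) (Fin 2) k).det = d) ∧
      ((∀ v : Fin 2 → k, v ≠ 0 →
          ¬ ∀ σ : GQ, ∃ c : k, ((r σ : GL (Fin 2) k) : Matrix (Fin 2) (Fin 2) k) *ᵥ v = c • v) ∨
        ∃ χ₁ χ₂ : GQ →* kˣ, r = Semisimple.diagHom χ₁ χ₂) := by
  set b : Module.Basis (Fin 2) k ρ.V := Module.finBasisOfFinrankEq k ρ.V ρ.finrank_eq with hb
  obtain ⟨r, htd, hone, hss⟩ := Semisimple.exists_semisimple (matHom ρ b)
  refine ⟨r, fun σ hσ => hone σ ?_, fun σ t d hcp => ?_, hss⟩
  · apply Units.ext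
    rw [matHom_apply, hσ, Units.val_one]
    exact (LinearMap.toMatrixAlgEquiv b).map_one
  · have h1 := charpoly_eq ρ b σ
    rw [hcp] at h1
    obtain ⟨ht, hd⟩ := quadratic_inj h1
    exact ⟨(htd σ).1.trans ht.symm, (htd σ).2.trans hd.symm⟩

/-- finite level passes to the matrix representation -/
theorem factorsThroughFiniteLevel_of_ker {M : Type} [MulOneClass M] (ρ : ResidualGaloisRep k)
    (r : GQ →* M) (h : ∀ σ : GQ, ρ.ρ σ = 1 → r σ = 1) : GaloisFactorsThroughFiniteLevel r := by
  obtain ⟨L, hL, hker⟩ := ρ.factorsThroughFiniteLevel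
  exact ⟨L, hL, fun σ hσ => h σ (hker σ hσ)⟩

end Fermat.Agent.S48.A.Assemble.Residual

end
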