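/-
PROJECT D (S48, Deligne–Serre), part A, brick A5b (the final assembly), file 8: Deligne–Serre (8.3),
concrete form: **for a weight-one eigenform, the semisimplified residual representations of the seam
`(B*)` have images of bounded exponent, uniformly in `(ℓ, k, φ)`** (helper29).

* `exists_uniform` : from `Seam.ResidualReps`, `Defs.ChebLower`, the tame bound and a finite set `Y`
  off which the `a_p` have upper logarithmic density `≤ 1 / 4`: there are `B₁` and `m > 0` such that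
  for every prime `ℓ > B₁`, every field `k` of characteristic `ℓ` and every `φ : ℤ̄ →+* k` there is
  `r : G_ℚ →* GL₂(k)` of finite level, semisimple, of exponent dividing `m` (and `m ≠ 0` in `k`),
  unramified outside `N ℓ`, with `(trace, det) (r Frob_p) = (φ a_p, φ ε(p))` for `p ∤ N ℓ`.
-/
import Mathlib
import Fermat.Agent.S48.Seam
import Fermat.Agent.S48.A.Defs
import Fermat.Agent.S48.A.Assemble.Residual
import Fermat.Agent.S48.A.Assemble.Bound

set_option autoImplicit false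

noncomputable section

namespace Fermat.Agent.S48.A.Assemble.Uniform

open Matrix CongruenceSubgroup Polynomial

local notation "Qb" => AlgebraicClosure ℚ

open scoped Classical in
/-- the extension by zero of `φ : ℤ̄ →+* k` to all of `ℂ` -/
def ext0 {k : Type} [Field k] (φ : Zbar →+* k) (x : ℂ) : k :=
  if h : x ∈ Zbar then φ ⟨x, h⟩ else 0

theorem ext0_coe {k : Type} [Field k] (φ : Zbar →+* k) (a : Zbar) : ext0 φ (a : ℂ) = φ a := by
  unfold ext0
  rw [dif_pos a.2]

/-- the semisimplicity disjunction used throughout the assembly -/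
def SSDisj {k : Type} [Field k] (r : GQ →* GL (Fin 2) k) : Prop :=
  (∀ v : Fin 2 → k, v ≠ 0 →
      ¬ ∀ σ : GQ, ∃ c : k, ((r σ : GL (Fin 2) k) : Matrix (Fin 2) (Fin 2) k) *ᵥ v = c • v) ∨
    ∃ χ₁ χ₂ : GQ →* kˣ, r = Semisimple.diagHom χ₁ χ₂

/-- the conclusion of the seam `(B*)` for the matrix representation `r` -/
def AttachedMat {k : Type} [Field k] (r : GQ →* GL (Fin 2) k) {N : ℕ} [NeZero N]
    (ε : DirichletCharacter ℂ N) (f : CuspForm (Gamma1 N) 1) (ℓ : ℕ) (φ : Zbar →+* k) : Prop :=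
  ∀ p : ℕ, p.Prime → ¬ p ∣ N * ℓ → ∀ A : ValuationSubring Qb, A.LiesOverPrime p →
    (∀ σ ∈ A.inertiaSubgroupIn ℚ, r σ = 1) ∧
    ∀ σ : GQ, A.IsFrobeniusAt σ p → ∃ a e : Zbar, (a : ℂ) = ModularFormClass.qCoeff f p ∧
      (e : ℂ) = ε (p : ZMod N) ∧
      ((r σ : GL (Fin 2) k) : Matrix (Fin 2) (Fin 2) k).trace = φ a ∧
      ((r σ : GL (Fin 2) k) : Matrix (Fin 2) (Fin 2) k).det = φ e

/-- the uniform family of semisimple residual matrix representations of exponent dividing `m` -/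
def UniformAt {N : ℕ} [NeZero N] (ε : DirichletCharacter ℂ N) (f : CuspForm (Gamma1 N) 1)
    (B₁ m : ℕ) : Prop :=
  ∀ ℓ : ℕ, ℓ.Prime → B₁ < ℓ → ∀ (k : Type) [Field k] [CharP k ℓ] (φ : Zbar →+* k),
    ∃ r : GQ →* GL (Fin 2) k, GaloisFactorsThroughFiniteLevel r ∧ SSDisj r ∧
      (∀ σ : GQ, ((r σ : GL (Fin 2) k) : Matrix (Fin 2) (Fin 2) k) ^ m = 1) ∧
      ((m : ℕ) : k) ≠ 0 ∧ AttachedMat r ε f ℓ φ

/-- **Deligne–Serre (8.3), concrete form.** -/
theorem exists_uniform (hB : Seam.ResidualReps) (hCheb : ChebLower)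
    (htame : FewPolys.TameBound.{0}) (N : ℕ) [NeZero N] (ε : DirichletCharacter ℂ N)
    (f : CuspForm (Gamma1 N) 1) (hf₁ : ModularFormClass.qCoeff f 1 = 1)
    (hT : Seam.HeckeRel N ε f) (Y : Finset ℂ)
    (hY : UpperLogDensityLE {p | ¬ p ∣ N ∧ ModularFormClass.qCoeff f p ∉ Y} (1 / 4)) :
    ∃ B₁ m : ℕ, 0 < m ∧ UniformAt ε f B₁ m := by
  classical
  obtain ⟨B₀, hB₀⟩ := hB N ε f hf₁ hT
  set E : Finset ℂ := Finset.univ.image (fun x : ZMod N => ε x) with hE
  set M : ℕ := Y.card * N with hM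
  set m : ℕ := (480 * M).factorial with hm
  have hmpos : 0 < m := Nat.factorial_pos _
  refine ⟨max B₀ (max (8 * M) m), m, hmpos, fun ℓ hℓ hlt k _ _ φ => ?_⟩
  have hℓB₀ : B₀ < ℓ := lt_of_le_of_lt (le_max_left _ _) hlt
  have hℓM : 8 * M < ℓ :=
    lt_of_le_of_lt ((le_max_left _ _).trans (le_max_right _ _)) hlt
  have hℓm : m < ℓ := lt_of_le_of_lt ((le_max_right _ _).trans (le_max_right _ _)) hlt
  have : Fact ℓ.Prime := ⟨hℓ⟩
  obtain ⟨ρ, hunr, hatt⟩ := hB₀ ℓ hℓ hℓB₀ k φ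
  obtain ⟨r, hone, hcp, hss⟩ := Residual.exists_matrixRep ρ
  have hlevel : GaloisFactorsThroughFiniteLevel r :=
    Residual.factorsThroughFiniteLevel_of_ker ρ r hone
  -- the attached property
  have hAtt : AttachedMat r ε f ℓ φ := by
    intro p hp hpNℓ A hA
    refine ⟨fun σ hσ => hone σ (hunr p hp hpNℓ A hA σ hσ), fun σ hσ => ?_⟩
    obtain ⟨a, e, ha, he, hcharpoly⟩ := hatt p hp hpNℓ A hA σ hσ
    exact ⟨a, e, ha, he, hcp σ _ _ hcharpoly⟩
  -- the bound on the image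
  set T : Finset (k × k) := (Y ×ˢ E).image (Prod.map (ext0 φ) (ext0 φ)) with hTdef
  have hTcard : T.card ≤ M := by
    refine Finset.card_image_le.trans ?_
    rw [Finset.card_product, hM]
    refine Nat.mul_le_mul_left _ ?_
    refine Finset.card_image_le.trans ?_
    rw [Finset.card_univ, ZMod.card]
  have hNℓ0 : N * ℓ ≠ 0 := Nat.mul_ne_zero (NeZero.ne N) hℓ.ne_zero
  have hS : ∀ p : ℕ, p.Prime → p ∉ (N * ℓ).primeFactors → ¬ p ∣ N * ℓ := by
    intro p hp hpS hdvd
    exact hpS (Nat.mem_primeFactors.mpr ⟨hp, hdvd, hNℓ0⟩)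
  have hcard : Nat.card r.range ≤ 480 * T.card := by
    refine Bound.card_range_le hCheb htame r hlevel (Semisimple.hss_of r hss)
      (N * ℓ).primeFactors (fun p => ext0 φ (ModularFormClass.qCoeff f p))
      (fun p => ext0 φ (ε (p : ZMod N))) ?_
      {p | p ∣ N ∨ ModularFormClass.qCoeff f p ∈ Y} T ?_ ?_
      (lt_of_le_of_lt (Nat.mul_le_mul_left 8 hTcard) hℓM)
    · intro p hp hpS A hA σ hσ
      obtain ⟨a, e, ha, he, htr, hdet⟩ := (hAtt p hp (hS p hp hpS) A hA).2 σ hσ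
      rw [← ha, ← he, ext0_coe, ext0_coe]
      exact ⟨htr, hdet⟩
    · intro p hp hpS hgood
      have hpN : ¬ p ∣ N := fun h => hS p hp hpS (Dvd.dvd.mul_right h ℓ)
      have hpY : ModularFormClass.qCoeff f p ∈ Y := by
        rcases hgood with h | h
        · exact absurd h hpN
        · exact h
      rw [hTdef, Finset.mem_image]
      refine ⟨(ModularFormClass.qCoeff f p, ε (p : ZMod N)), ?_, rfl⟩
      rw [Finset.mem_product]
      exact ⟨hpY, Finset.mem_image.mpr ⟨(p : ZMod N), Finset.mem_univ _, rfl⟩⟩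
    · have hset : ({p | p ∣ N ∨ ModularFormClass.qCoeff f p ∈ Y}ᶜ : Set ℕ) =
          {p | ¬ p ∣ N ∧ ModularFormClass.qCoeff f p ∉ Y} := by
        ext p
        simp only [Set.mem_compl_iff, Set.mem_ofPred_eq, not_or]
      rw [hset]
      exact hY
  -- the exponent
  have hfin : Finite r.range := Bound.finite_range r hlevel
  have hcardpos : 0 < Nat.card r.range := Nat.card_pos
  have hcardle : Nat.card r.range ≤ 480 * M :=
    hcard.trans (Nat.mul_le_mul_left 480 hTcard)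
  have hdvd : Nat.card r.range ∣ m := Nat.dvd_factorial hcardpos hcardle
  have hpow : ∀ σ : GQ, ((r σ : GL (Fin 2) k) : Matrix (Fin 2) (Fin 2) k) ^ m = 1 := by
    intro σ
    have h1 : (⟨r σ, σ, rfl⟩ : r.range) ^ Nat.card r.range = 1 := pow_card_eq_one'
    have h2 : (⟨r σ, σ, rfl⟩ : r.range) ^ m = 1 := by
      obtain ⟨c, hc⟩ := hdvd
      rw [hc, pow_mul, h1, one_pow]
    have h3 : (r σ) ^ m = 1 := by
      have := congrArg Subtype.val h2
      simpa using this
    rw [← Units.val_pow_eq_pow_val, h3, Units.val_one]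
  have hmk : ((m : ℕ) : k) ≠ 0 := by
    intro h0
    have h1 : ℓ ∣ m := (CharP.cast_eq_zero_iff k ℓ m).mp h0
    have h2 : ℓ ≤ m := Nat.le_of_dvd hmpos h1
    omega
  exact ⟨r, hlevel, hss, hpow, hmk, hAtt⟩

end Fermat.Agent.S48.A.Assemble.Uniform

end
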