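/-
PROJECT D (S48, Deligne–Serre), part A, brick A5b (the final assembly), file 9: Deligne–Serre (8.4):
**every `X ^ 2 - a_p X + ε(p)`, `p ∤ N`, is `(X - ζ₁) (X - ζ₂)` with `ζ₁ ^ m = ζ₂ ^ m = 1`**
(helper29).

No pigeonhole is needed: the candidates `ζ₁ + ζ₂`, `ζ₁ ζ₂` form a finite set, which together with
`a_p`, `ε(p)` is separated by every `φ_ℓ` for `ℓ` large (`Cyclo.exists_bound_injOn`); one such `ℓ`
suffices.

* `rootsSums m`, `rootsProds m` : the finite sets `{ζ₁ + ζ₂}`, `{ζ₁ ζ₂}` in `ℤ̄`.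
* `exists_roots` : (8.4).
-/
import Mathlib
import Fermat.Agent.S48.A.PadicFrame
import Fermat.Agent.S48.A.Assemble.Cyclo
import Fermat.Agent.S48.A.Assemble.Uniform

set_option autoImplicit false

noncomputable section

namespace Fermat.Agent.S48.A.Assemble.Finite

open Matrix CongruenceSubgroup Polynomial
open Fermat.Agent.S48.A.Assemble.Uniform

local notation "Qb" => AlgebraicClosure ℚ

open scoped Classical in
/-- the sums of two `m`-th roots of unity of `ℤ̄` -/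
def rootsSums (m : ℕ) : Finset Zbar :=
  Finset.image₂ (fun x y => x + y) (nthRootsFinset m (1 : Zbar)) (nthRootsFinset m (1 : Zbar))

open scoped Classical in
/-- the products of two `m`-th roots of unity of `ℤ̄` -/
def rootsProds (m : ℕ) : Finset Zbar :=
  Finset.image₂ (fun x y => x * y) (nthRootsFinset m (1 : Zbar)) (nthRootsFinset m (1 : Zbar))

theorem add_mem_rootsSums {m : ℕ} (hm : 0 < m) {x y : Zbar} (hx : x ^ m = 1) (hy : y ^ m = 1) :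
    x + y ∈ rootsSums m := by
  classical
  exact Finset.mem_image₂.mpr
    ⟨x, (mem_nthRootsFinset hm 1).mpr hx, y, (mem_nthRootsFinset hm 1).mpr hy, rfl⟩

theorem mul_mem_rootsProds {m : ℕ} (hm : 0 < m) {x y : Zbar} (hx : x ^ m = 1) (hy : y ^ m = 1) :
    x * y ∈ rootsProds m := by
  classical
  exact Finset.mem_image₂.mpr
    ⟨x, (mem_nthRootsFinset hm 1).mpr hx, y, (mem_nthRootsFinset hm 1).mpr hy, rfl⟩

/-- a prime above a bound, different from a given prime -/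
theorem exists_prime_gt (B : ℕ) : ∃ ℓ : ℕ, ℓ.Prime ∧ B < ℓ := by
  obtain ⟨ℓ, hℓ, hp⟩ := Nat.exists_infinite_primes (B + 1)
  exact ⟨ℓ, hp, by omega⟩

/-- `p ∤ N ℓ` for a prime `p ∤ N` and a prime `ℓ > p` -/
theorem not_dvd_mul {N p ℓ : ℕ} (hp : p.Prime) (hℓ : ℓ.Prime) (hpN : ¬ p ∣ N) (hlt : p < ℓ) :
    ¬ p ∣ N * ℓ := by
  intro h
  rcases (Nat.Prime.dvd_mul hp).mp h with h1 | h1
  · exact hpN h1
  · have := (Nat.prime_dvd_prime_iff_eq hp hℓ).mp h1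
    omega

/-- **Deligne–Serre (8.4).** -/
theorem exists_roots {N : ℕ} [NeZero N] {ε : DirichletCharacter ℂ N}
    {f : CuspForm (Gamma1 N) 1} {B₁ m : ℕ} (hm : 0 < m) (hU : UniformAt ε f B₁ m) {p : ℕ}
    (hp : p.Prime) (hpN : ¬ p ∣ N) :
    ∃ ζ₁ ζ₂ : Zbar, ζ₁ ^ m = 1 ∧ ζ₂ ^ m = 1 ∧
      ModularFormClass.qCoeff f p = (ζ₁ : ℂ) + (ζ₂ : ℂ) ∧
      ε (p : ZMod N) = (ζ₁ : ℂ) * (ζ₂ : ℂ) := by
  classical
  obtain ⟨A, σ, hA, hσ⟩ :=
    Fermat.Agent.Lib.FrobeniusExists.exists_valuationSubring_isFrobeniusAt p hp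
  -- the data at one prime `ℓ`
  have step : ∀ B : ℕ, ∃ (ℓ : ℕ) (_ : ℓ.Prime) (k : Type) (_ : Field k) (_ : CharP k ℓ)
      (φ : Zbar →+* k) (a e : Zbar), B < ℓ ∧ (a : ℂ) = ModularFormClass.qCoeff f p ∧
        (e : ℂ) = ε (p : ZMod N) ∧
        ∃ ζ₁ ζ₂ : Zbar, ζ₁ ^ m = 1 ∧ ζ₂ ^ m = 1 ∧ φ a = φ (ζ₁ + ζ₂) ∧ φ e = φ (ζ₁ * ζ₂) := by
    intro B
    obtain ⟨ℓ, hℓ, hlt⟩ := exists_prime_gt (max B (max B₁ p))
    have hB : B < ℓ := lt_of_le_of_lt (le_max_left _ _) hlt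
    have hB₁ : B₁ < ℓ := lt_of_le_of_lt ((le_max_left _ _).trans (le_max_right _ _)) hlt
    have hpℓ : p < ℓ := lt_of_le_of_lt ((le_max_right _ _).trans (le_max_right _ _)) hlt
    have : Fact ℓ.Prime := ⟨hℓ⟩
    obtain ⟨-, k, hk, hchar, φ, -, -⟩ := PadicFrame.exists_frame ℓ
    obtain ⟨r, -, -, hpow, -, hatt⟩ := hU ℓ hℓ hB₁ k φ
    obtain ⟨a, e, ha, he, htr, hdet⟩ :=
      (hatt p hp (not_dvd_mul hp hℓ hpN hpℓ) A hA).2 σ hσ
    obtain ⟨ζ₁, ζ₂, h1, h2, htr', hdet'⟩ := Cyclo.exists_roots_of_pow_eq_one φ _ hm (hpow σ)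
    exact ⟨ℓ, hℓ, k, hk, hchar, φ, a, e, hB, ha, he, ζ₁, ζ₂, h1, h2, htr.symm.trans htr',
      hdet.symm.trans hdet'⟩
  -- a first prime gives `a`, `e`
  obtain ⟨-, -, -, -, -, -, a, e, -, ha, he, -⟩ := step 0
  -- the separating bound
  obtain ⟨B, hBinj⟩ := Cyclo.exists_bound_injOn
    (insert a (insert e (rootsSums m ∪ rootsProds m)))
  obtain ⟨ℓ, hℓ, k, hk, hchar, φ, a', e', hBℓ, ha', he', ζ₁, ζ₂, h1, h2, htr, hdet⟩ := step B
  have haa : a' = a := Subtype.ext (ha'.trans ha.symm)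
  have hee : e' = e := Subtype.ext (he'.trans he.symm)
  subst haa hee
  have hinj := hBinj ℓ hBℓ k φ
  have hamem : a' ∈ ((insert a' (insert e' (rootsSums m ∪ rootsProds m)) : Finset Zbar) :
      Set Zbar) := by
    simp
  have hemem : e' ∈ ((insert a' (insert e' (rootsSums m ∪ rootsProds m)) : Finset Zbar) :
      Set Zbar) := by
    simp
  have hsmem : ζ₁ + ζ₂ ∈ ((insert a' (insert e' (rootsSums m ∪ rootsProds m)) : Finset Zbar) :
      Set Zbar) := by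
    have := add_mem_rootsSums hm h1 h2
    simp [this]
  have hpmem : ζ₁ * ζ₂ ∈ ((insert a' (insert e' (rootsSums m ∪ rootsProds m)) : Finset Zbar) :
      Set Zbar) := by
    have := mul_mem_rootsProds hm h1 h2
    simp [this]
  have e1 : a' = ζ₁ + ζ₂ := hinj hamem hsmem htr
  have e2 : e' = ζ₁ * ζ₂ := hinj hemem hpmem hdet
  refine ⟨ζ₁, ζ₂, h1, h2, ?_, ?_⟩
  · rw [← ha, e1]
    rfl
  · rw [← he, e2]
    rfl

end Fermat.Agent.S48.A.Assemble.Finite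

end
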