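/-
PROJECT D (S48, Deligne–Serre), part A, brick A5b (the final assembly), file 10: Deligne–Serre (8.5):
**the lift to characteristic `0`** (helper29).

For a prime `ℓ ≡ 1 (mod m)`, large, with helper13's frame `(ι : ℤ_[ℓ] →+* ℂ, k, φ)`
(`PadicFrame.exists_frame`): the semisimple residual representation `r : G_ℚ →* GL₂(k)` of exponent
dividing `m` has all its eigenvalues in the prime field, hence descends to `GL₂(ZMod ℓ)`
(`Descent.exists_descent`), its image has order prime to `ℓ`, it lifts to `GL₂(ℤ_[ℓ])`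
(`LiftPadic.exists_lift_padicInt`) and `ι` carries it to `GL₂(ℂ)`.  The pairs (trace, det) at the
Frobenius elements are recovered from the injectivity of `φ` on the finite set of sums and products
of two `m`-th roots of unity.

* `exists_lift` : the representation `ρ : G_ℚ →* GL₂(ℂ)`, of finite level, unramified outside `N ℓ`,
  with `(trace, det) (ρ Frob_p) = (a_p, ε(p))` for `p ∤ N ℓ`, for a prime `ℓ` beyond any bound.
-/
import Mathlib
import Fermat.Agent.S48.A.PadicFrame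
import Fermat.Agent.S48.A.LiftPadic
import Fermat.Agent.S48.A.Assemble.Descent
import Fermat.Agent.S48.A.Assemble.Finite

set_option autoImplicit false

noncomputable section

namespace Fermat.Agent.S48.A.Assemble.Lift

open Matrix CongruenceSubgroup Polynomial
open Fermat.Agent.S48.A.Assemble.Uniform Fermat.Agent.S48.A.Assemble.Finite

local notation "Qb" => AlgebraicClosure ℚ

/-! ### `GL.map` -/

section Map

variable {R S : Type*} [CommRing R] [CommRing S]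

theorem trace_map (f : R →+* S) (g : GL (Fin 2) R) :
    ((Matrix.GeneralLinearGroup.map f g : GL (Fin 2) S) : Matrix (Fin 2) (Fin 2) S).trace =
      f ((g : Matrix (Fin 2) (Fin 2) R).trace) := by
  show ((g : Matrix (Fin 2) (Fin 2) R).map f).trace = f ((g : Matrix (Fin 2) (Fin 2) R).trace)
  rw [Matrix.trace, Matrix.trace, map_sum]
  rfl

theorem det_map (f : R →+* S) (g : GL (Fin 2) R) :
    ((Matrix.GeneralLinearGroup.map f g : GL (Fin 2) S) : Matrix (Fin 2) (Fin 2) S).det =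
      f ((g : Matrix (Fin 2) (Fin 2) R).det) :=
  (RingHom.map_det f (g : Matrix (Fin 2) (Fin 2) R)).symm

theorem map_injective (f : R →+* S) (hf : Function.Injective f) :
    Function.Injective (Matrix.GeneralLinearGroup.map (n := Fin 2) f) := by
  intro g h hgh
  apply Units.ext
  ext i i'
  apply hf
  have := congrArg (fun x : GL (Fin 2) S => (x : Matrix (Fin 2) (Fin 2) S) i i') hgh
  simpa [Matrix.GeneralLinearGroup.map_apply] using this

end Map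

/-- an `m`-th root of unity of `k`, `m ∣ ℓ - 1`, lies in the prime field -/
theorem mem_range_castHom_of_pow_eq_one {ℓ : ℕ} [Fact ℓ.Prime] {k : Type*} [Field k] [CharP k ℓ]
    {u : k} {m : ℕ} (hm : m ∣ ℓ - 1) (hu : u ^ m = 1) :
    ∃ c : ZMod ℓ, ZMod.castHom (dvd_refl ℓ) k c = u := by
  have hℓ : ℓ.Prime := Fact.out
  have h1 : u ^ (ℓ - 1) = 1 := by
    obtain ⟨c, hc⟩ := hm
    rw [hc, pow_mul, hu, one_pow]
  have h2 : u ^ ℓ = u := by
    have : ℓ = (ℓ - 1) + 1 := by have := hℓ.one_le; omega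
    rw [this, pow_succ, h1, one_mul]
  have h3 : u ∈ (⊥ : Subfield k) := (Subfield.mem_bot_iff_pow_eq_self k ℓ).mpr h2
  obtain ⟨n, hn⟩ := (mem_bot_iff_intCast ℓ k).mp h3
  exact ⟨(n : ZMod ℓ), by rw [map_intCast]; exact hn⟩

/-- **Deligne–Serre (8.5): the lift to characteristic `0`.** -/
theorem exists_lift {N : ℕ} [NeZero N] {ε : DirichletCharacter ℂ N}
    {f : CuspForm (Gamma1 N) 1} {B₁ m : ℕ} (hm : 0 < m) (hU : UniformAt ε f B₁ m)
    (hroots : ∀ p : ℕ, p.Prime → ¬ p ∣ N → ∃ ζ₁ ζ₂ : Zbar, ζ₁ ^ m = 1 ∧ ζ₂ ^ m = 1 ∧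
      ModularFormClass.qCoeff f p = (ζ₁ : ℂ) + (ζ₂ : ℂ) ∧
      ε (p : ZMod N) = (ζ₁ : ℂ) * (ζ₂ : ℂ))
    (B : ℕ) :
    ∃ ℓ : ℕ, ℓ.Prime ∧ B < ℓ ∧ ∃ ρ : GQ →* GL (Fin 2) ℂ, GaloisFactorsThroughFiniteLevel ρ ∧
      ∀ p : ℕ, p.Prime → ¬ p ∣ N * ℓ → ∀ A : ValuationSubring Qb, A.LiesOverPrime p →
        (∀ σ ∈ A.inertiaSubgroupIn ℚ, ρ σ = 1) ∧
        ∀ σ : GQ, A.IsFrobeniusAt σ p →
          ((ρ σ : GL (Fin 2) ℂ) : Matrix (Fin 2) (Fin 2) ℂ).trace =
            ModularFormClass.qCoeff f p ∧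
          ((ρ σ : GL (Fin 2) ℂ) : Matrix (Fin 2) (Fin 2) ℂ).det = ε (p : ZMod N) := by
  classical
  obtain ⟨B', hB'⟩ := Cyclo.exists_bound_injOn (rootsSums m ∪ rootsProds m)
  obtain ⟨ℓ, hℓ, hlt, hmod⟩ := Nat.exists_prime_gt_modEq_one (max B (max B₁ B')) hm.ne'
  have hBℓ : B < ℓ := lt_of_le_of_lt (le_max_left _ _) hlt
  have hB₁ℓ : B₁ < ℓ := lt_of_le_of_lt ((le_max_left _ _).trans (le_max_right _ _)) hlt
  have hB'ℓ : B' < ℓ := lt_of_le_of_lt ((le_max_right _ _).trans (le_max_right _ _)) hlt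
  have : Fact ℓ.Prime := ⟨hℓ⟩
  have hmdvd : m ∣ ℓ - 1 := (Nat.modEq_iff_dvd' hℓ.one_le).mp hmod.symm
  obtain ⟨ι, k, hk, hchar, φ, hι, hφ⟩ := PadicFrame.exists_frame ℓ
  obtain ⟨r, hlevel, hss, hpow, hmk, hatt⟩ := hU ℓ hℓ hB₁ℓ k φ
  have hinj := hB' ℓ hB'ℓ k φ
  set j : ZMod ℓ →+* k := ZMod.castHom (dvd_refl ℓ) k with hj
  -- all eigenvalues lie in the prime field
  have heig : ∀ σ : GQ, ∃ a b : ZMod ℓ,
      ((r σ : GL (Fin 2) k) : Matrix (Fin 2) (Fin 2) k).trace = j a + j b ∧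
      ((r σ : GL (Fin 2) k) : Matrix (Fin 2) (Fin 2) k).det = j a * j b := by
    intro σ
    obtain ⟨ζ₁, ζ₂, h1, h2, htr, hdet⟩ := Cyclo.exists_roots_of_pow_eq_one φ _ hm (hpow σ)
    obtain ⟨a, ha⟩ := mem_range_castHom_of_pow_eq_one (k := k) hmdvd (u := φ ζ₁)
      (by rw [← map_pow, h1, map_one])
    obtain ⟨b, hb⟩ := mem_range_castHom_of_pow_eq_one (k := k) hmdvd (u := φ ζ₂)
      (by rw [← map_pow, h2, map_one])
    exact ⟨a, b, by rw [htr, map_add, ha, hb], by rw [hdet, map_mul, ha, hb]⟩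
  -- descent to the prime field
  obtain ⟨Q, r₀, hr₀⟩ := Descent.exists_descent j r hmk hpow heig hss
  have hmapinj : Function.Injective (Matrix.GeneralLinearGroup.map (n := Fin 2) j) :=
    map_injective j j.injective
  have hr₀one : ∀ σ : GQ, r σ = 1 → r₀ σ = 1 := by
    intro σ h
    apply hmapinj
    rw [hr₀, h, mul_one, mul_inv_cancel, map_one]
  have hr₀level : GaloisFactorsThroughFiniteLevel r₀ := by
    obtain ⟨L, hL, hker⟩ := hlevel
    exact ⟨L, hL, fun σ hσ => hr₀one σ (hker σ hσ)⟩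
  have hr₀tr : ∀ σ : GQ, j ((r₀ σ : GL (Fin 2) (ZMod ℓ)) : Matrix (Fin 2) (Fin 2) (ZMod ℓ)).trace =
      ((r σ : GL (Fin 2) k) : Matrix (Fin 2) (Fin 2) k).trace := by
    intro σ
    rw [← trace_map, hr₀, Units.val_mul, Units.val_mul, Matrix.trace_mul_cycle, ← Units.val_mul,
      inv_mul_cancel, Units.val_one, one_mul]
  have hr₀det : ∀ σ : GQ, j ((r₀ σ : GL (Fin 2) (ZMod ℓ)) : Matrix (Fin 2) (Fin 2) (ZMod ℓ)).det =
      ((r σ : GL (Fin 2) k) : Matrix (Fin 2) (Fin 2) k).det := by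
    intro σ
    rw [← det_map, hr₀, Units.val_mul, Units.val_mul, Matrix.det_units_conj]
  have hrpow : ∀ σ : GQ, r σ ^ m = 1 := by
    intro σ
    apply Units.ext
    rw [Units.val_pow_eq_pow_val, hpow σ, Units.val_one]
  have hr₀pow : ∀ σ : GQ, r₀ σ ^ m = 1 := by
    intro σ
    apply hmapinj
    rw [map_pow, hr₀, conj_pow, hrpow, mul_one, mul_inv_cancel, map_one]
  -- the image of `r₀` has order prime to `ℓ`
  set G₀ : Subgroup (GL (Fin 2) (ZMod ℓ)) := r₀.range with hG₀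
  have hfin : Finite G₀ := Bound.finite_range r₀ hr₀level
  have hcop : (Nat.card G₀).Coprime ℓ := by
    rw [Nat.coprime_comm, Nat.Prime.coprime_iff_not_dvd hℓ]
    intro hdvd
    obtain ⟨x, hx⟩ := exists_prime_orderOf_dvd_card' ℓ hdvd
    obtain ⟨σ, hσ⟩ := x.2
    have h1 : x ^ m = 1 := by
      apply Subtype.ext
      rw [SubgroupClass.coe_pow, ← hσ, hr₀pow]
      rfl
    have h2 : ℓ ∣ m := hx ▸ orderOf_dvd_of_pow_eq_one h1
    exact hmk ((CharP.cast_eq_zero_iff k ℓ m).mpr h2)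
  -- the lift
  obtain ⟨ρ₁, hρ₁⟩ := LiftPadic.exists_lift_padicInt hcop G₀.subtype
  set ρ : GQ →* GL (Fin 2) ℂ :=
    (Matrix.GeneralLinearGroup.map ι).comp (ρ₁.comp r₀.rangeRestrict) with hρ
  have hρapply : ∀ σ : GQ, ρ σ = Matrix.GeneralLinearGroup.map ι (ρ₁ (r₀.rangeRestrict σ)) :=
    fun σ => rfl
  have hres_one : ∀ σ : GQ, r₀ σ = 1 → r₀.rangeRestrict σ = 1 := fun σ h => Subtype.ext h
  have hρone : ∀ σ : GQ, r σ = 1 → ρ σ = 1 := by
    intro σ h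
    rw [hρapply, hres_one σ (hr₀one σ h), map_one, map_one]
  have hρlevel : GaloisFactorsThroughFiniteLevel ρ := by
    obtain ⟨L, hL, hker⟩ := hlevel
    exact ⟨L, hL, fun σ hσ => hρone σ (hker σ hσ)⟩
  refine ⟨ℓ, hℓ, hBℓ, ρ, hρlevel, fun p hp hpNℓ A hA => ⟨fun σ hσ => ?_, fun σ hσ => ?_⟩⟩
  · exact hρone σ ((hatt p hp hpNℓ A hA).1 σ hσ)
  · obtain ⟨a, e, ha, he, htr, hdet⟩ := (hatt p hp hpNℓ A hA).2 σ hσ
    have hpN : ¬ p ∣ N := fun h => hpNℓ (Dvd.dvd.mul_right h ℓ)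
    obtain ⟨ζ₁, ζ₂, h1, h2, hap, hep⟩ := hroots p hp hpN
    have haζ : a = ζ₁ + ζ₂ := Subtype.ext (ha.trans hap)
    have heζ : e = ζ₁ * ζ₂ := Subtype.ext (he.trans hep)
    set g : GL (Fin 2) ℤ_[ℓ] := ρ₁ (r₀.rangeRestrict σ) with hg
    have hgred : Matrix.GeneralLinearGroup.map (PadicInt.toZMod (p := ℓ)) g = r₀ σ := by
      rw [hg, hρ₁]
      rfl
    -- finite order
    have hresp : r₀.rangeRestrict σ ^ m = 1 := by
      apply Subtype.ext
      rw [SubgroupClass.coe_pow]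
      exact hr₀pow σ
    have hρpow : ((ρ σ : GL (Fin 2) ℂ) : Matrix (Fin 2) (Fin 2) ℂ) ^ m = 1 := by
      rw [← Units.val_pow_eq_pow_val, hρapply, ← map_pow, ← map_pow, hresp, map_one, map_one,
        Units.val_one]
    obtain ⟨x, y, hx, hy, htrρ, hdetρ⟩ := Cyclo.exists_eigenvalues_of_pow_eq_one _ hρpow
    have hxint : IsIntegral ℤ x := IsIntegral.of_pow hm (by rw [hx]; exact isIntegral_one)
    have hyint : IsIntegral ℤ y := IsIntegral.of_pow hm (by rw [hy]; exact isIntegral_one)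
    set ξ₁ : Zbar := ⟨x, hxint⟩ with hξ₁
    set ξ₂ : Zbar := ⟨y, hyint⟩ with hξ₂
    have hξ₁m : ξ₁ ^ m = 1 := Subtype.ext hx
    have hξ₂m : ξ₂ ^ m = 1 := Subtype.ext hy
    -- the trace
    have htrι : ((ρ σ : GL (Fin 2) ℂ) : Matrix (Fin 2) (Fin 2) ℂ).trace =
        ι ((g : Matrix (Fin 2) (Fin 2) ℤ_[ℓ]).trace) := by
      rw [hρapply, trace_map]
    have hdetι : ((ρ σ : GL (Fin 2) ℂ) : Matrix (Fin 2) (Fin 2) ℂ).det =
        ι ((g : Matrix (Fin 2) (Fin 2) ℤ_[ℓ]).det) := by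
      rw [hρapply, det_map]
    have hcT : ι ((g : Matrix (Fin 2) (Fin 2) ℤ_[ℓ]).trace) = ((ξ₁ + ξ₂ : Zbar) : ℂ) := by
      rw [← htrι, htrρ]
      rfl
    have hcD : ι ((g : Matrix (Fin 2) (Fin 2) ℤ_[ℓ]).det) = ((ξ₁ * ξ₂ : Zbar) : ℂ) := by
      rw [← hdetι, hdetρ]
      rfl
    have hintT : IsIntegral ℤ (ι ((g : Matrix (Fin 2) (Fin 2) ℤ_[ℓ]).trace)) := by
      rw [hcT]
      exact (ξ₁ + ξ₂).2
    have hintD : IsIntegral ℤ (ι ((g : Matrix (Fin 2) (Fin 2) ℤ_[ℓ]).det)) := by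
      rw [hcD]
      exact (ξ₁ * ξ₂).2
    have hφT : φ (ξ₁ + ξ₂) = φ (ζ₁ + ζ₂) := by
      have h3 := hφ _ hintT
      have h4 : (⟨ι ((g : Matrix (Fin 2) (Fin 2) ℤ_[ℓ]).trace), hintT⟩ : integralClosure ℤ ℂ) =
          ξ₁ + ξ₂ := Subtype.ext hcT
      rw [h4] at h3
      rw [h3, ← trace_map, hgred]
      show j _ = _
      rw [hr₀tr, htr, haζ]
    have hφD : φ (ξ₁ * ξ₂) = φ (ζ₁ * ζ₂) := by
      have h3 := hφ _ hintD
      have h4 : (⟨ι ((g : Matrix (Fin 2) (Fin 2) ℤ_[ℓ]).det), hintD⟩ : integralClosure ℤ ℂ) =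
          ξ₁ * ξ₂ := Subtype.ext hcD
      rw [h4] at h3
      rw [h3, ← det_map, hgred]
      show j _ = _
      rw [hr₀det, hdet, heζ]
    have hsumeq : ξ₁ + ξ₂ = ζ₁ + ζ₂ := by
      refine hinj ?_ ?_ hφT
      · rw [Finset.coe_union]
        exact Or.inl (add_mem_rootsSums hm hξ₁m hξ₂m)
      · rw [Finset.coe_union]
        exact Or.inl (add_mem_rootsSums hm h1 h2)
    have hprodeq : ξ₁ * ξ₂ = ζ₁ * ζ₂ := by
      refine hinj ?_ ?_ hφD
      · rw [Finset.coe_union]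
        exact Or.inr (mul_mem_rootsProds hm hξ₁m hξ₂m)
      · rw [Finset.coe_union]
        exact Or.inr (mul_mem_rootsProds hm h1 h2)
    constructor
    · rw [htrι, hcT, hsumeq, hap]
      rfl
    · rw [hdetι, hcD, hprodeq, hep]
      rfl

end Fermat.Agent.S48.A.Assemble.Lift

end
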